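import Mathlib

/-!
# Basic facts on `ℤ[ζ_p]` used for the Kummer descent
-/

set_option autoImplicit false

open NumberField IsCyclotomicExtension IsCyclotomicExtension.Rat

namespace Fermat.Agent.KummerFLT

variable {p : ℕ} [hp : Fact p.Prime] {K : Type} [Field K] [NumberField K]
  [IsCyclotomicExtension {p} ℚ K] {ζ : K} (hζ : IsPrimitiveRoot ζ p)

/-- induction principle: every element of `𝓞 K` is an integral polynomial in `ζ`. -/
theorem ind_zeta {P : 𝓞 K → Prop} (hint : ∀ n : ℤ, P (n : 𝓞 K)) (hz : P hζ.toInteger)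
    (hadd : ∀ x y, P x → P y → P (x + y)) (hmul : ∀ x y, P x → P y → P (x * y)) (x : 𝓞 K) :
    P x := by
  have hx : x ∈ Algebra.adjoin ℤ ({hζ.toInteger} : Set (𝓞 K)) := by
    rw [adjoin_singleton_eq_top hζ]; trivial
  refine Algebra.adjoin_induction (p := fun y _ => P y) ?_ ?_ ?_ ?_ hx
  · intro y hy
    rw [Set.mem_singleton_iff] at hy
    rw [hy]; exact hz
  · intro n
    simpa using hint n
  · intro a b _ _ ha hb
    exact hadd a b ha hb
  · intro a b _ _ ha hb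
    exact hmul a b ha hb

/-- If `α ∣ ζ - t`, every element is congruent to an integer mod `α`. -/
theorem exists_int_of_dvd {α : 𝓞 K} (t : ℤ) (h : α ∣ hζ.toInteger - t) (x : 𝓞 K) :
    ∃ n : ℤ, α ∣ x - n := by
  refine ind_zeta hζ (P := fun x => ∃ n : ℤ, α ∣ x - n) ?_ ?_ ?_ ?_ x
  · intro n; exact ⟨n, by simp⟩
  · exact ⟨t, h⟩
  · rintro x y ⟨n, hn⟩ ⟨m, hm⟩
    refine ⟨n + m, ?_⟩
    have := dvd_add hn hm
    push_cast
    convert this using 1
    ring
  · rintro x y ⟨n, hn⟩ ⟨m, hm⟩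
    refine ⟨n * m, ?_⟩
    have := dvd_add (hn.mul_right y) (hm.mul_left (n : 𝓞 K))
    push_cast
    convert this using 1
    ring

/-- every element of `𝓞 K` is an integer mod `ζ - 1`. -/
theorem exists_int_lam (x : 𝓞 K) : ∃ n : ℤ, hζ.toInteger - 1 ∣ x - n :=
  exists_int_of_dvd hζ 1 (by simp) x

omit [NumberField K] [IsCyclotomicExtension {p} ℚ K] in
/-- `(x+y)^p - x^p - y^p` is divisible by `p`. -/
theorem dvd_add_pow_sub (x y : 𝓞 K) : (p : 𝓞 K) ∣ (x + y) ^ p - (x ^ p + y ^ p) := by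
  obtain ⟨r, hr⟩ := exists_add_pow_prime_eq hp.out x y
  exact ⟨x * y * r, by rw [hr]; ring⟩

include hζ in
/-- every `p`-th power is congruent to an integer mod `p` -/
theorem exists_int_pow (x : 𝓞 K) : ∃ n : ℤ, (p : 𝓞 K) ∣ x ^ p - n := by
  refine ind_zeta hζ (P := fun x => ∃ n : ℤ, (p : 𝓞 K) ∣ x ^ p - n) ?_ ?_ ?_ ?_ x
  · intro n; exact ⟨n ^ p, by simp⟩
  · refine ⟨1, ?_⟩
    have : hζ.toInteger ^ p = 1 := hζ.toInteger_isPrimitiveRoot.pow_eq_one
    simp [this]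
  · rintro x y ⟨n, hn⟩ ⟨m, hm⟩
    refine ⟨n + m, ?_⟩
    have := dvd_add (dvd_add_pow_sub (p := p) x y) (dvd_add hn hm)
    push_cast
    convert this using 1
    ring
  · rintro x y ⟨n, hn⟩ ⟨m, hm⟩
    refine ⟨n * m, ?_⟩
    have := dvd_add (hn.mul_right (y ^ p)) (hm.mul_left (n : 𝓞 K))
    push_cast
    convert this using 1
    ring

theorem lam_dvd_int_iff {n : ℤ} : hζ.toInteger - 1 ∣ (n : 𝓞 K) ↔ (p : ℤ) ∣ n :=
  IsCyclotomicExtension.Rat.zeta_sub_one_dvd_intCast_iff' p hζ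

theorem lam_prime : Prime (hζ.toInteger - 1) := hζ.zeta_sub_one_prime'

theorem lam_dvd_p : hζ.toInteger - 1 ∣ (p : 𝓞 K) := hζ.toInteger_sub_one_dvd_prime'

omit [NumberField K] [IsCyclotomicExtension {p} ℚ K] in
theorem lam_pow_dvd_p : (hζ.toInteger - 1) ^ (p - 1) ∣ (p : 𝓞 K) :=
  (IsCyclotomicExtension.Rat.associated_zeta_sub_one_pow_prime p hζ).dvd

/-- If an integer is not divisible by `p` then it has an inverse mod `p`. -/
theorem exists_int_inv {n : ℤ} (h : ¬ (p : ℤ) ∣ n) : ∃ m : ℤ, (p : ℤ) ∣ n * m - 1 := by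
  have hcop : IsCoprime n (p : ℤ) := by
    rw [isCoprime_comm]
    exact (Prime.coprime_iff_not_dvd (Nat.prime_iff_prime_int.mp hp.out)).mpr h
  obtain ⟨a, b, hab⟩ := hcop
  refine ⟨a, -b, ?_⟩
  linear_combination hab

/-- integers dividing an element : coefficients.  If `m` divides `∑_{i<p-1} c_i ζ^i`, then
`m ∣ c_i`. -/
theorem dvd_coeff {m : ℤ} {c : ℕ → ℤ}
    (h : (m : 𝓞 K) ∣ ∑ i ∈ Finset.range (p - 1), (c i : 𝓞 K) * hζ.toInteger ^ i)
    {i : ℕ} (hi : i < p - 1) : m ∣ c i := by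
  obtain ⟨y, hy⟩ := h
  set pb := hζ.integralPowerBasis with hpb
  have hdim : pb.dim = p - 1 := by
    rw [hpb, hζ.integralPowerBasis_dim, Nat.totient_prime hp.out]
  have hgen : pb.gen = hζ.toInteger := hζ.integralPowerBasis_gen
  have h1 : (∑ i ∈ Finset.range (p - 1), (c i : 𝓞 K) * hζ.toInteger ^ i)
      = ∑ j : Fin pb.dim, c j • pb.basis j := by
    rw [← hdim, Finset.sum_range]
    refine Finset.sum_congr rfl ?_
    intro j _
    rw [pb.basis_eq_pow, hgen, zsmul_eq_mul]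
  rw [h1] at hy
  have h2 := congrArg (fun z => pb.basis.repr z ⟨i, by rw [hdim]; exact hi⟩) hy
  simp only [Module.Basis.repr_sum_self] at h2
  refine ⟨pb.basis.repr y ⟨i, by rw [hdim]; exact hi⟩, ?_⟩
  rw [h2]
  have : (m : 𝓞 K) * y = m • y := by rw [zsmul_eq_mul]
  rw [this, map_zsmul]
  simp

end Fermat.Agent.KummerFLT
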