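import Mathlib
import Fermat.Agent.KummerFLT.Basic

/-!
# Case I of Kummer's theorem, for cyclotomic rings of integers which are PIDs
-/

set_option autoImplicit false

open NumberField IsCyclotomicExtension IsCyclotomicExtension.Rat Polynomial

namespace Fermat.Agent.KummerFLT

variable {p : ℕ} [hp : Fact p.Prime] {K : Type} [Field K] [NumberField K]
  [IsCyclotomicExtension {p} ℚ K] {ζ : K} (hζ : IsPrimitiveRoot ζ p)

/-- If `m` divides `∑_{i<p} c_i ζ^i`, then `m ∣ c_i - c_j`. -/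
theorem dvd_coeff_sub {m : ℤ} {c : ℕ → ℤ}
    (h : (m : 𝓞 K) ∣ ∑ i ∈ Finset.range p, (c i : 𝓞 K) * hζ.toInteger ^ i)
    {i : ℕ} (hi : i < p) {j : ℕ} (hj : j < p) : m ∣ c i - c j := by
  have hpos := hp.out.pos
  have hone := hp.out.one_lt
  have hgeom : ∑ i ∈ Finset.range p, hζ.toInteger ^ i = 0 :=
    hζ.toInteger_isPrimitiveRoot.geom_sum_eq_zero hone
  have h1 : ∑ i ∈ Finset.range p, (c i : 𝓞 K) * hζ.toInteger ^ i
      = ∑ i ∈ Finset.range (p - 1), ((c i - c (p - 1) : ℤ) : 𝓞 K) * hζ.toInteger ^ i := by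
    have h2 : ∑ i ∈ Finset.range p, (c i : 𝓞 K) * hζ.toInteger ^ i
        = ∑ i ∈ Finset.range p, ((c i - c (p - 1) : ℤ) : 𝓞 K) * hζ.toInteger ^ i := by
      push_cast
      simp only [sub_mul, Finset.sum_sub_distrib]
      rw [← Finset.mul_sum, hgeom, mul_zero, sub_zero]
    rw [h2]
    have h3 : Finset.range p = insert (p - 1) (Finset.range (p - 1)) := by
      ext t
      simp only [Finset.mem_insert, Finset.mem_range]
      omega
    rw [h3, Finset.sum_insert (by simp)]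
    simp
  rw [h1] at h
  have key : ∀ i, i < p → m ∣ c i - c (p - 1) := by
    intro i hi
    rcases lt_or_ge i (p - 1) with h3 | h3
    · exact dvd_coeff hζ h h3
    · have : i = p - 1 := by omega
      rw [this]; simp
  have h4 := dvd_sub (key i hi) (key j hj)
  have h5 : c i - c (p - 1) - (c j - c (p - 1)) = c i - c j := by ring
  rwa [h5] at h4

/-- complex conjugation on `𝓞 K`, and Kummer's result `u / ū = ± ζ^r`. -/
theorem exists_conj (hp2 : 2 < p) : ∃ σ : 𝓞 K →+* 𝓞 K, (σ hζ.toInteger * hζ.toInteger = 1) ∧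
    (∀ u : (𝓞 K)ˣ, ∃ r : ℕ, r < p ∧ ((u : 𝓞 K) = hζ.toInteger ^ r * σ u ∨
      (u : 𝓞 K) = -(hζ.toInteger ^ r * σ u))) := by
  haveI : IsCMField K := isCMField K (S := {p}) ⟨p, rfl, hp2⟩
  have hodd : Odd p := hp.out.odd_of_ne_two (by omega)
  refine ⟨((RingOfIntegers.mapRingEquiv (IsCMField.complexConj K).toRingEquiv).toRingHom), ?_, ?_⟩
  · set uz : (𝓞 K)ˣ := (hζ.toInteger_isPrimitiveRoot.isUnit hp.out.ne_zero).unit with huz
    have huz' : (uz : 𝓞 K) = hζ.toInteger := IsUnit.unit_spec _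
    have hmem : uz ∈ NumberField.Units.torsion K := by
      rw [NumberField.Units.torsion, CommGroup.mem_torsion, isOfFinOrder_iff_pow_eq_one]
      refine ⟨p, hp.out.pos, ?_⟩
      ext1
      push_cast
      rw [huz', hζ.toInteger_isPrimitiveRoot.pow_eq_one]
    have h1 := IsCMField.unitsComplexConj_torsion K ⟨uz, hmem⟩
    have h2 := congrArg (fun v : (𝓞 K)ˣ => ((v * uz : (𝓞 K)ˣ) : 𝓞 K)) h1
    simp only at h2
    rw [Units.val_mul, huz'] at h2
    have h3 : (((⟨uz, hmem⟩ : NumberField.Units.torsion K)⁻¹ : NumberField.Units.torsion K) : (𝓞 K)ˣ)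
      * uz = 1 := by simp
    rw [h3, Units.val_one] at h2
    rw [← h2, ← huz']
    rfl
  · intro u
    set t := IsCMField.unitsMulComplexConjInv K u with ht
    have ht1 : (t : (𝓞 K)ˣ) = u * (IsCMField.unitsComplexConj K u)⁻¹ :=
      IsCMField.unitsMulComplexConjInv_apply K u
    have hfin : IsOfFinOrder (((t : (𝓞 K)ˣ) : 𝓞 K) : K) := by
      have h1 : IsOfFinOrder (t : (𝓞 K)ˣ) := t.2
      have h2 := (Units.coeHom (𝓞 K)).isOfFinOrder h1
      exact ((algebraMap (𝓞 K) K) : (𝓞 K) →* K).isOfFinOrder h2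
    obtain ⟨r, hr, hr'⟩ := hζ.exists_pow_or_neg_mul_pow_of_isOfFinOrder hodd hfin
    refine ⟨r, hr, ?_⟩
    have hu : (u : 𝓞 K) = ((t : (𝓞 K)ˣ) : 𝓞 K) * ((IsCMField.unitsComplexConj K u : (𝓞 K)ˣ) : 𝓞 K) := by
      rw [ht1, ← Units.val_mul, inv_mul_cancel_right]
    have hconj : ((IsCMField.unitsComplexConj K u : (𝓞 K)ˣ) : 𝓞 K)
      = (RingOfIntegers.mapRingEquiv (IsCMField.complexConj K).toRingEquiv).toRingHom (u : 𝓞 K) := rfl
    rw [hconj] at hu
    rcases hr' with h | h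
    · left
      have h1 : ((t : (𝓞 K)ˣ) : 𝓞 K) = hζ.toInteger ^ r := by
        apply RingOfIntegers.ext
        rw [h]; simp
      rw [← h1]; exact hu
    · right
      have h1 : ((t : (𝓞 K)ˣ) : 𝓞 K) = -hζ.toInteger ^ r := by
        apply RingOfIntegers.ext
        rw [h]; simp
      rw [h1] at hu
      rw [← neg_mul]
      exact hu

/-- In case I, `a + b ζ = u α ^ p`. -/
theorem caseOne_factor [IsPrincipalIdealRing (𝓞 K)] (hp2 : 2 < p) {a b c : ℤ}
    (hab : IsCoprime a b) (hc : ¬ (p : ℤ) ∣ c) (h : a ^ p + b ^ p = c ^ p) :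
    ∃ (u : (𝓞 K)ˣ) (α : 𝓞 K), (a : 𝓞 K) + b * hζ.toInteger = u * α ^ p := by
  classical
  set Z := hζ.toInteger with hZ
  have hz := hζ.toInteger_isPrimitiveRoot
  set S := nthRootsFinset p (1 : 𝓞 K) with hS
  have hodd : Odd p := hp.out.odd_of_ne_two (by omega)
  have hprod : ∏ η ∈ S, ((a : 𝓞 K) + η * b) = (c : 𝓞 K) ^ p := by
    rw [← hz.pow_add_pow_eq_prod_add_mul (a : 𝓞 K) (b : 𝓞 K) hodd]
    exact_mod_cast congrArg (fun t : ℤ => (t : 𝓞 K)) h
  have hab' : IsCoprime (a : 𝓞 K) (b : 𝓞 K) := by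
    have := hab.map (Int.castRingHom (𝓞 K))
    simpa using this
  have hlamc : IsCoprime (Z - 1) (c : 𝓞 K) := by
    have h1 : ¬ (Z - 1) ∣ (c : 𝓞 K) := by
      rw [hZ, lam_dvd_int_iff hζ]; exact hc
    exact (Prime.coprime_iff_not_dvd (lam_prime hζ)).mpr h1
  have hcop : ∀ η ∈ S, ∀ η' ∈ S, η ≠ η' → IsCoprime ((a : 𝓞 K) + η * b) ((a : 𝓞 K) + η' * b) := by
    intro η hη η' hη' hne
    obtain ⟨u, hu⟩ := hz.nthRootsFinset_pairwise_associated_sub_one_sub_of_prime hp.out hη hη' hne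
    -- the ideal contains lam and c ^ p
    have hc' : ∃ s, (c : 𝓞 K) ^ p = (a + η * b) * s := by
      refine ⟨∏ η ∈ S.erase η, ((a : 𝓞 K) + η * b), ?_⟩
      rw [Finset.mul_prod_erase S (fun η => (a : 𝓞 K) + η * b) hη, hprod]
    obtain ⟨s, hs⟩ := hc'
    have hlamcp : IsCoprime (Z - 1) ((c : 𝓞 K) ^ p) := hlamc.pow_right
    obtain ⟨e, f, hef⟩ := hlamcp
    obtain ⟨α, β, hαβ⟩ := hab'
    -- (Z - 1) * u * b = (a + η b) - (a + η' b); (Z-1) u a = η (a + η' b) - η' (a + η b)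
    have hu' : (↑u⁻¹ : 𝓞 K) * u = 1 := by simp
    have e1 : (Z - 1) * u * b = (a + η * b) - (a + η' * b) := by
      rw [hu]; ring
    have e2 : (Z - 1) * u * a = η * (a + η' * b) - η' * (a + η * b) := by
      rw [hu]; ring
    -- lam = u⁻¹ (α e2 + β e1)
    refine ⟨e * ↑u⁻¹ * (-α * η' + β) + f * s, e * ↑u⁻¹ * (α * η - β), ?_⟩
    linear_combination (-e * ↑u⁻¹ * α) * e2 - e * ↑u⁻¹ * β * e1 + hef
      + e * (Z - 1) * hu' + e * (Z - 1) * ↑u⁻¹ * u * hαβ - f * hs
  have hZS : Z ∈ S := by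
    rw [mem_nthRootsFinset hp.out.pos]; exact hz.pow_eq_one
  have hmul : ((a : 𝓞 K) + Z * b) * ∏ η' ∈ S.erase Z, ((a : 𝓞 K) + η' * b) = (c : 𝓞 K) ^ p := by
    rw [Finset.mul_prod_erase S (fun η => (a : 𝓞 K) + η * b) hZS, hprod]
  have hc2 : IsCoprime ((a : 𝓞 K) + Z * b) (∏ η' ∈ S.erase Z, ((a : 𝓞 K) + η' * b)) :=
    IsCoprime.prod_right (fun η' hη' => hcop Z hZS η' (Finset.mem_of_mem_erase hη')
      (Finset.ne_of_mem_erase hη').symm)
  obtain ⟨d, u, hd⟩ := exists_associated_pow_of_mul_eq_pow' hc2 hmul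
  exact ⟨u, d, by rw [mul_comm (b : 𝓞 K), ← hd]; ring⟩

include hζ in
/-- In case I, `a ≡ b mod p`. -/
theorem caseOne_congr [IsPrincipalIdealRing (𝓞 K)] (hp5 : 5 ≤ p) {a b c : ℤ}
    (hab : IsCoprime a b) (ha : ¬ (p : ℤ) ∣ a) (hb : ¬ (p : ℤ) ∣ b)
    (hc : ¬ (p : ℤ) ∣ c) (h : a ^ p + b ^ p = c ^ p) : (p : ℤ) ∣ a - b := by
  have hp2 : 2 < p := by omega
  have hodd : Odd p := hp.out.odd_of_ne_two (by omega)
  obtain ⟨u, α, hu⟩ := caseOne_factor hζ hp2 hab hc h
  obtain ⟨σ, hσZ, hσ⟩ := exists_conj hζ hp2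
  obtain ⟨n, hn⟩ := exists_int_pow hζ α
  obtain ⟨r, hr, hr'⟩ := hσ u
  set Z := hζ.toInteger with hZ
  have hz := hζ.toInteger_isPrimitiveRoot
  have hZp : Z ^ p = 1 := hz.pow_eq_one
  have hσp : (p : 𝓞 K) ∣ σ (α ^ p) - n := by
    have := σ.map_dvd hn
    simpa using this
  have hσu : (a : 𝓞 K) + b * σ Z = σ u * σ (α ^ p) := by
    have := congrArg σ hu
    simpa using this
  have e1 : (p : 𝓞 K) ∣ (a + b * Z) - u * n := by
    rw [hu]
    have := hn.mul_left (u : 𝓞 K)
    convert this using 1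
    ring
  have e2 : (p : 𝓞 K) ∣ (a + b * σ Z) - σ u * n := by
    rw [hσu]
    have := hσp.mul_left (σ u : 𝓞 K)
    convert this using 1
    ring
  rcases hr' with hr1 | hr1
  · have e3 : (p : 𝓞 K) ∣ a * Z + b * Z ^ 2 - a * Z ^ (r + 1) - b * Z ^ r := by
      have h1 := dvd_sub (e1.mul_left Z) (e2.mul_left (Z ^ r * Z))
      have h2 : Z * (a + b * Z - u * n) - Z ^ r * Z * (a + b * σ Z - σ u * n)
        = a * Z + b * Z ^ 2 - a * Z ^ (r + 1) - b * Z ^ r := by
        linear_combination (-Z * n) * hr1 - Z ^ r * b * hσZ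
      rwa [h2] at h1
    -- coefficient function
    set s : ℕ := (r + 1) % p with hs
    have hsZ : Z ^ (r + 1) = Z ^ s := by
      rw [hs]
      conv_lhs => rw [← Nat.div_add_mod (r + 1) p, pow_add, pow_mul, hZp, one_pow, one_mul]
    have hsp : s < p := Nat.mod_lt _ hp.out.pos
    set f : ℕ → ℤ := fun i => (if i = 1 then a else 0) + (if i = 2 then b else 0)
      - (if i = s then a else 0) - (if i = r then b else 0) with hf
    have hsum : ∑ i ∈ Finset.range p, (f i : 𝓞 K) * Z ^ i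
        = a * Z + b * Z ^ 2 - a * Z ^ (r + 1) - b * Z ^ r := by
      rw [hsZ]
      have hmem1 : 1 ∈ Finset.range p := by rw [Finset.mem_range]; omega
      have hmem2 : 2 ∈ Finset.range p := by rw [Finset.mem_range]; omega
      have hmems : s ∈ Finset.range p := by rw [Finset.mem_range]; omega
      have hmemr : r ∈ Finset.range p := by rw [Finset.mem_range]; omega
      simp only [hf]
      push_cast
      simp only [sub_mul, add_mul, Finset.sum_sub_distrib, Finset.sum_add_distrib, ite_mul,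
        zero_mul, Finset.sum_ite_eq', hmem1, hmem2, hmems, hmemr, if_true, pow_one]
    rw [← hsum] at e3
    have e4 : ∀ i j, i < p → j < p → (p : ℤ) ∣ f i - f j := by
      intro i j hi hj
      exact dvd_coeff_sub hζ (m := (p : ℤ)) (by simpa using e3) hi hj
    -- find an index where `f` vanishes
    have hex : ∃ j, j < p ∧ j ≠ 1 ∧ j ≠ 2 ∧ j ≠ s ∧ j ≠ r := by
      by_contra hcon
      push Not at hcon
      have hsub : Finset.range p ⊆ {1, 2, s, r} := by
        intro j hj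
        rw [Finset.mem_range] at hj
        simp only [Finset.mem_insert, Finset.mem_singleton]
        by_contra h5
        push Not at h5
        exact h5.2.2.2 (hcon j hj h5.1 h5.2.1 h5.2.2.1)
      have h6 := Finset.card_le_card hsub
      have h7 : ({1, 2, s, r} : Finset ℕ).card ≤ 4 := Finset.card_le_four
      rw [Finset.card_range] at h6
      omega
    obtain ⟨j, hj, hj1, hj2, hjs, hjr⟩ := hex
    have hfj : f j = 0 := by simp [hf, hj1, hj2, hjs, hjr]
    have e5 : ∀ i, i < p → (p : ℤ) ∣ f i := by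
      intro i hi
      have := e4 i j hi hj
      rwa [hfj, sub_zero] at this
    -- now the cases on r
    rcases Nat.lt_trichotomy r 1 with h0 | h0 | h0
    · exfalso
      have hr0 : r = 0 := by omega
      have hs1 : s = 1 := by rw [hs, hr0]; exact Nat.mod_eq_of_lt (by omega)
      have := e5 2 (by omega)
      simp [hf, hs1, hr0] at this
      exact hb this
    · have hs1 : s = 2 := by rw [hs, h0]; exact Nat.mod_eq_of_lt (by omega)
      have := e5 1 (by omega)
      simpa [hf, hs1, h0] using this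
    · exfalso
      have hs1 : s ≠ 1 := by
        intro h8
        have h9 : (r + 1) % p = 1 := h8
        rcases Nat.lt_or_ge (r + 1) p with h10 | h10
        · rw [Nat.mod_eq_of_lt h10] at h9; omega
        · have : r + 1 = p := by omega
          rw [this, Nat.mod_self] at h9
          omega
      have := e5 1 (by omega)
      have hr1' : (1 : ℕ) ≠ r := by omega
      simp [hf, hs1.symm, hr1'] at this
      exact ha this
  · exfalso
    have hlam := lam_prime hζ
    have e3 : (p : 𝓞 K) ∣ a * Z + b * Z ^ 2 + a * Z ^ (r + 1) + b * Z ^ r := by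
      have h1 := dvd_add (e1.mul_left Z) (e2.mul_left (Z ^ r * Z))
      have h2 : Z * (a + b * Z - u * n) + Z ^ r * Z * (a + b * σ Z - σ u * n)
        = a * Z + b * Z ^ 2 + a * Z ^ (r + 1) + b * Z ^ r := by
        linear_combination (-Z * n) * hr1 + Z ^ r * b * hσZ
      rwa [h2] at h1
    have e4 : Z - 1 ∣ a * Z + b * Z ^ 2 + a * Z ^ (r + 1) + b * Z ^ r := (lam_dvd_p hζ).trans e3
    have e5 : ∀ k : ℕ, Z - 1 ∣ Z ^ k - 1 := fun k => by simpa using sub_dvd_pow_sub_pow Z 1 k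
    have e6 : Z - 1 ∣ ((2 * (a + b) : ℤ) : 𝓞 K) := by
      have h1 := dvd_sub (dvd_sub (dvd_sub (dvd_sub e4 ((e5 1).mul_left (a : 𝓞 K)))
        ((e5 2).mul_left (b : 𝓞 K))) ((e5 (r + 1)).mul_left (a : 𝓞 K))) ((e5 r).mul_left (b : 𝓞 K))
      convert h1 using 1
      push_cast
      ring
    rw [hZ, lam_dvd_int_iff hζ] at e6
    have hpP : Prime (p : ℤ) := Nat.prime_iff_prime_int.mp hp.out
    rcases hpP.dvd_or_dvd e6 with h7 | h7
    · have := Int.le_of_dvd (by norm_num) h7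
      omega
    · have h8 : a + b ∣ c ^ p := by
        rw [← h]; exact hodd.add_dvd_pow_add_pow a b
      exact hc (hpP.dvd_of_dvd_pow (h7.trans h8))

include hζ in
/-- **Case I** -/
theorem caseOne [IsPrincipalIdealRing (𝓞 K)] (hp5 : 5 ≤ p) {a b c : ℤ}
    (hab : IsCoprime a b) (ha : ¬ (p : ℤ) ∣ a) (hb : ¬ (p : ℤ) ∣ b)
    (hc : ¬ (p : ℤ) ∣ c) (h : a ^ p + b ^ p = c ^ p) : False := by
  have hodd : Odd p := hp.out.odd_of_ne_two (by omega)
  have h1 := caseOne_congr hζ hp5 hab ha hb hc h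
  have hac : IsCoprime a (-c) := by
    have h2 : IsCoprime (a ^ p) (b ^ p) := hab.pow
    have h3 : IsCoprime (a ^ p) (c ^ p) := by
      rw [← h]
      have := h2.add_mul_left_right 1
      simpa [add_comm] using this
    have h4 : IsCoprime a c := (IsCoprime.pow_iff hp.out.pos hp.out.pos).mp h3
    exact h4.neg_right
  have h2 := caseOne_congr hζ hp5 (a := a) (b := -c) (c := -b) hac ha
    (by rwa [dvd_neg]) (by rwa [dvd_neg]) (by rw [hodd.neg_pow, hodd.neg_pow]; linarith)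
  -- conclude mod p
  have e1 : (a : ZMod p) = b := by
    have := (ZMod.intCast_zmod_eq_zero_iff_dvd (a - b) p).mpr h1
    push_cast at this
    linear_combination this
  have e2 : (a : ZMod p) = -c := by
    have := (ZMod.intCast_zmod_eq_zero_iff_dvd (a - -c) p).mpr h2
    push_cast at this
    linear_combination this
  have e3 : (a : ZMod p) + b = c := by
    have h3 := congrArg (fun t : ℤ => (t : ZMod p)) h
    push_cast at h3
    rwa [ZMod.pow_card, ZMod.pow_card, ZMod.pow_card] at h3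
  have e4 : ((3 * a : ℤ) : ZMod p) = 0 := by
    push_cast
    linear_combination e1 + e2 + e3
  have e5 := (ZMod.intCast_zmod_eq_zero_iff_dvd _ _).mp e4
  have hpP : Prime (p : ℤ) := Nat.prime_iff_prime_int.mp hp.out
  rcases hpP.dvd_or_dvd e5 with h7 | h7
  · have := Int.le_of_dvd (by norm_num) h7
    omega
  · exact ha h7

end Fermat.Agent.KummerFLT
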