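import Mathlib
import Fermat.Agent.KummerFLT.Basic

/-!
# Case II of Kummer's theorem, for cyclotomic rings of integers which are PIDs
-/

set_option autoImplicit false

open NumberField IsCyclotomicExtension IsCyclotomicExtension.Rat Polynomial

namespace Fermat.Agent.KummerFLT

variable {p : ℕ} [hp : Fact p.Prime] {K : Type} [Field K] [NumberField K]
  [IsCyclotomicExtension {p} ℚ K] {ζ : K} (hζ : IsPrimitiveRoot ζ p)

/-- `1 + ζ` is a unit -/
theorem isUnit_one_add (hp2 : 2 < p) : IsUnit (1 + hζ.toInteger) := by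
  have h := hζ.toInteger_isPrimitiveRoot.geom_sum_isUnit hp.out.two_le (j := 2) (by
    rw [Nat.coprime_comm]
    exact (Nat.Prime.coprime_iff_not_dvd hp.out).mpr (fun h => by
      have := Nat.le_of_dvd (by norm_num) h
      omega))
  simpa [Finset.sum_range_succ] using h

/-- Data of the factorisation in the second case. -/
theorem caseTwo_factors [IsPrincipalIdealRing (𝓞 K)] (hp2 : 2 < p)
    {m : ℕ} {x y z : 𝓞 K} {ε : (𝓞 K)ˣ} (hxy : IsCoprime x y)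
    (hy : ¬ hζ.toInteger - 1 ∣ y)
    (h : x ^ p + y ^ p = ε * ((hζ.toInteger - 1) ^ (m + 1) * z) ^ p) :
    ∃ a : 𝓞 K → 𝓞 K, (∀ η ∈ nthRootsFinset p (1 : 𝓞 K), x + η * y = (hζ.toInteger - 1) * a η) ∧
      (∏ η ∈ nthRootsFinset p (1 : 𝓞 K), a η = ε * ((hζ.toInteger - 1) ^ m * z) ^ p) ∧
      (∀ η ∈ nthRootsFinset p (1 : 𝓞 K), ∀ η' ∈ nthRootsFinset p (1 : 𝓞 K), η ≠ η' →
        IsCoprime (a η) (a η')) ∧
      (∃ η₀ ∈ nthRootsFinset p (1 : 𝓞 K), hζ.toInteger - 1 ∣ a η₀) := by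
  classical
  set lam := hζ.toInteger - 1 with hlam
  have hlamp : Prime lam := lam_prime hζ
  have hlam0 : lam ≠ 0 := hlamp.ne_zero
  set S := nthRootsFinset p (1 : 𝓞 K) with hS
  have hz := hζ.toInteger_isPrimitiveRoot
  have hodd : Odd p := hp.out.odd_of_ne_two (by omega)
  have hprod : ∏ η ∈ S, (x + η * y) = ε * (lam ^ (m + 1) * z) ^ p := by
    rw [← h, hz.pow_add_pow_eq_prod_add_mul x y hodd]
  have hdvdprod : lam ∣ ∏ η ∈ S, (x + η * y) := by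
    rw [hprod]
    refine Dvd.dvd.mul_left ?_ _
    refine dvd_pow ?_ hp.out.ne_zero
    refine Dvd.dvd.mul_right ?_ _
    exact dvd_pow_self _ (by omega)
  obtain ⟨η₁, hη₁, hη₁'⟩ := (Prime.dvd_finset_prod_iff hlamp _).mp hdvdprod
  have hdvd : ∀ η ∈ S, ∃ a, x + η * y = lam * a := by
    intro η hη
    have h1 : lam ∣ η - η₁ := hz.sub_one_dvd_sub hp.out hη hη₁
    have h2 : lam ∣ (x + η₁ * y) + (η - η₁) * y := dvd_add hη₁' (h1.mul_right y)
    obtain ⟨c, hc⟩ := h2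
    exact ⟨c, by rw [← hc]; ring⟩
  choose! a ha using hdvd
  have hcard : S.card = p := hz.card_nthRootsFinset
  have hassoc : ∀ η ∈ S, ∀ η' ∈ S, η ≠ η' → ∃ u : (𝓞 K)ˣ, lam * u = η - η' := by
    intro η hη η' hη' hne
    exact hz.nthRootsFinset_pairwise_associated_sub_one_sub_of_prime hp.out hη hη' hne
  refine ⟨a, ha, ?_, ?_, ?_⟩
  · have h1 : ∏ η ∈ S, (x + η * y) = lam ^ p * ∏ η ∈ S, a η := by
      rw [Finset.prod_congr rfl ha, Finset.prod_mul_distrib, Finset.prod_const, hcard]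
    rw [hprod] at h1
    have h2 : lam ^ p * (∏ η ∈ S, a η) = lam ^ p * (ε * (lam ^ m * z) ^ p) := by
      rw [← h1]; ring
    exact mul_left_cancel₀ (pow_ne_zero _ hlam0) h2
  · intro η hη η' hη' hne
    obtain ⟨u, hu⟩ := hassoc η hη η' hη' hne
    have h1 : a η - a η' = u * y := by
      apply mul_left_cancel₀ hlam0
      have e1 := ha η hη
      have e2 := ha η' hη'
      linear_combination e2 - e1 - hu * y
    have h2 : η' * a η - η * a η' = - (u * x) := by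
      apply mul_left_cancel₀ hlam0
      have e1 := ha η hη
      have e2 := ha η' hη'
      linear_combination η * e2 - η' * e1 + hu * x
    obtain ⟨α, β, hαβ⟩ := hxy
    have hu' : (↑u⁻¹ : 𝓞 K) * u = 1 := by simp
    refine ⟨-α * ↑u⁻¹ * η' + β * ↑u⁻¹, α * ↑u⁻¹ * η - β * ↑u⁻¹, ?_⟩
    linear_combination (-α * ↑u⁻¹) * h2 + (β * ↑u⁻¹) * h1 + hαβ + (α * x + β * y) * hu'
  · -- pigeonhole
    choose n hn using fun w : 𝓞 K => exists_int_lam hζ w
    have hinj : Set.InjOn (fun η => ((n (a η) : ℤ) : ZMod p)) (S : Set (𝓞 K)) := by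
      intro η hη η' hη' heq
      by_contra hne
      obtain ⟨u, hu⟩ := hassoc η hη η' hη' hne
      have h1 : a η - a η' = u * y := by
        apply mul_left_cancel₀ hlam0
        have e1 := ha η hη
        have e2 := ha η' hη'
        linear_combination e2 - e1 - hu * y
      have h2 : (p : ℤ) ∣ n (a η) - n (a η') := by
        have := (ZMod.intCast_eq_intCast_iff_dvd_sub _ _ _).mp heq
        rw [← dvd_neg]; simpa using this
      have h3 : lam ∣ ((n (a η) - n (a η') : ℤ) : 𝓞 K) := (lam_dvd_int_iff hζ).mpr h2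
      have h4 : lam ∣ a η - a η' := by
        have := dvd_add (dvd_sub (hn (a η)) (hn (a η'))) h3
        convert this using 1
        push_cast
        ring
      rw [h1] at h4
      rcases hlamp.dvd_or_dvd h4 with h5 | h5
      · exact hlamp.not_unit (isUnit_of_dvd_unit h5 u.isUnit)
      · exact hy h5
    have hsurj : Set.SurjOn (fun η => ((n (a η) : ℤ) : ZMod p)) (S : Set (𝓞 K))
        ((Finset.univ : Finset (ZMod p)) : Set (ZMod p)) := by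
      apply Finset.surjOn_of_injOn_of_card_le
      · intro _ _; simp
      · exact hinj
      · rw [Finset.card_univ, ZMod.card, hcard]
    obtain ⟨η₀, hη₀, h0⟩ := hsurj (Finset.mem_coe.mpr (Finset.mem_univ (0 : ZMod p)))
    refine ⟨η₀, hη₀, ?_⟩
    have h1 : (p : ℤ) ∣ n (a η₀) := (ZMod.intCast_zmod_eq_zero_iff_dvd _ _).mp h0
    have h2 := (lam_dvd_int_iff hζ).mpr h1
    have := dvd_add (hn (a η₀)) h2
    simpa using this

/-- One descent step. -/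
theorem caseTwo_step [IsPrincipalIdealRing (𝓞 K)] (hp2 : 2 < p)
    (hKum : ∀ u : (𝓞 K)ˣ, (∃ n : ℤ, (p : 𝓞 K) ∣ (u : 𝓞 K) - n) → ∃ v : (𝓞 K)ˣ, v ^ p = u)
    {m : ℕ} {x y z : 𝓞 K} {ε : (𝓞 K)ˣ} (hxy : IsCoprime x y)
    (hy : ¬ hζ.toInteger - 1 ∣ y) (hz0 : ¬ hζ.toInteger - 1 ∣ z)
    (h : x ^ p + y ^ p = ε * ((hζ.toInteger - 1) ^ (m + 1) * z) ^ p) :
    0 < m ∧ ∃ (x' y' z' : 𝓞 K) (ε' : (𝓞 K)ˣ), IsCoprime x' y' ∧ (¬ hζ.toInteger - 1 ∣ y') ∧
      (¬ hζ.toInteger - 1 ∣ z') ∧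
      x' ^ p + y' ^ p = ε' * ((hζ.toInteger - 1) ^ m * z') ^ p := by
  classical
  obtain ⟨a, ha, hprod, hcop, η₀, hη₀, hη₀'⟩ := caseTwo_factors hζ hp2 hxy hy h
  set lam := hζ.toInteger - 1 with hlam
  have hlamp : Prime lam := lam_prime hζ
  have hlam0 : lam ≠ 0 := hlamp.ne_zero
  set S := nthRootsFinset p (1 : 𝓞 K) with hS
  have hz := hζ.toInteger_isPrimitiveRoot
  set Z := hζ.toInteger with hZ
  have hZp : Z ^ p = 1 := hz.pow_eq_one
  have hZu : IsUnit Z := hz.isUnit hp.out.ne_zero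
  have hpos : 0 < p := hp.out.pos
  have hmem : ∀ η : 𝓞 K, η ∈ S ↔ η ^ p = 1 := fun η => mem_nthRootsFinset hpos 1
  have hη₀p : η₀ ^ p = 1 := (hmem _).mp hη₀
  have hη₀0 : η₀ ≠ 0 := by
    rintro rfl
    rw [zero_pow hpos.ne'] at hη₀p
    exact zero_ne_one hη₀p
  -- the other roots
  have hη₁ : η₀ * Z ∈ S := by rw [hmem, mul_pow, hη₀p, hZp, one_mul]
  have hη₂ : η₀ * Z ^ (p - 1) ∈ S := by
    rw [hmem, mul_pow, hη₀p, ← pow_mul, mul_comm (p - 1) p, pow_mul, hZp, one_pow, one_mul]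
  have hZZ : Z * Z ^ (p - 1) = 1 := by
    rw [← pow_succ', Nat.sub_add_cancel hpos, hZp]
  have hZ1 : Z ≠ 1 := hz.ne_one hp.out.one_lt
  have hne01 : η₀ ≠ η₀ * Z := by
    intro he
    apply hZ1
    have : η₀ * Z = η₀ * 1 := by rw [← he, mul_one]
    exact mul_left_cancel₀ hη₀0 this
  have hne02 : η₀ ≠ η₀ * Z ^ (p - 1) := by
    intro he
    apply hZ1
    have : η₀ * Z ^ (p - 1) = η₀ * 1 := by rw [← he, mul_one]
    have h1 := mul_left_cancel₀ hη₀0 this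
    rw [h1, mul_one] at hZZ
    exact hZZ
  have hne12 : η₀ * Z ≠ η₀ * Z ^ (p - 1) := by
    intro he
    have h1 := mul_left_cancel₀ hη₀0 he
    rw [← h1] at hZZ
    have h2 : Z ^ 2 = 1 := by rw [pow_two]; exact hZZ
    have h3 := hz.dvd_of_pow_eq_one 2 h2
    have := Nat.le_of_dvd (by norm_num) h3
    omega
  -- powers
  have hpow : ∀ η ∈ S, ∃ (b : 𝓞 K) (u : (𝓞 K)ˣ), a η = u * b ^ p := by
    intro η hη
    have hmul : a η * ∏ η' ∈ S.erase η, a η' = ε * (lam ^ m * z) ^ p := by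
      rw [Finset.mul_prod_erase S a hη, hprod]
    have hc : IsCoprime (a η) (∏ η' ∈ S.erase η, a η') :=
      IsCoprime.prod_right (fun η' hη' => hcop η hη η' (Finset.mem_of_mem_erase hη')
        (Finset.ne_of_mem_erase hη').symm)
    obtain ⟨d, hd⟩ := exists_associated_pow_of_associated_pow_mul hc
      (c := lam ^ m * z) (k := p) ⟨ε, by rw [hmul]; ring⟩
    obtain ⟨u, hu⟩ := hd
    exact ⟨d, u, by rw [← hu]; ring⟩
  obtain ⟨b₀, u₀, hb₀⟩ := hpow _ hη₀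
  obtain ⟨b₁, u₁, hb₁⟩ := hpow _ hη₁
  obtain ⟨b₂, u₂, hb₂⟩ := hpow _ hη₂
  -- other factors are not divisible by lam
  have hnd : ∀ η ∈ S, η ≠ η₀ → ¬ lam ∣ a η := by
    intro η hη hne hd
    have h1 := hcop η hη η₀ hη₀ hne
    exact hlamp.not_unit (h1.isUnit_of_dvd' hd hη₀')
  -- m is positive
  have hlamz : lam ∣ lam ^ m * z := by
    have h1 : lam ∣ ∏ η ∈ S, a η := hη₀'.trans (Finset.dvd_prod_of_mem a hη₀)
    rw [hprod] at h1
    rcases hlamp.dvd_or_dvd h1 with h2 | h2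
    · exact absurd (isUnit_of_dvd_unit h2 ε.isUnit) hlamp.not_unit
    · exact hlamp.dvd_of_dvd_pow h2
  have hm : 0 < m := by
    rcases Nat.eq_zero_or_pos m with h0 | h0
    · rw [h0, pow_zero, one_mul] at hlamz
      exact absurd hlamz hz0
    · exact h0
  refine ⟨hm, ?_⟩
  -- b₀ is divisible by lam ^ m exactly
  have hmul0 : a η₀ * ∏ η' ∈ S.erase η₀, a η' = ε * (lam ^ m * z) ^ p := by
    rw [Finset.mul_prod_erase S a hη₀, hprod]
  have hrest : ¬ lam ∣ ∏ η' ∈ S.erase η₀, a η' := by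
    intro hd
    obtain ⟨η', hη', hd'⟩ := (Prime.dvd_finset_prod_iff hlamp _).mp hd
    exact hnd η' (Finset.mem_of_mem_erase hη') (Finset.ne_of_mem_erase hη') hd'
  have hdv0 : (lam ^ m) ^ p ∣ a η₀ := by
    rw [← pow_mul]
    apply hlamp.pow_dvd_of_dvd_mul_right _ hrest
    rw [hmul0]
    refine Dvd.dvd.mul_left ?_ _
    rw [mul_pow, ← pow_mul]
    exact dvd_mul_right _ _
  have hdvb0 : lam ^ m ∣ b₀ := by
    rw [hb₀] at hdv0
    have h1 : (lam ^ m) ^ p ∣ b₀ ^ p := by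
      rwa [Units.dvd_mul_left] at hdv0
    exact (IsIntegrallyClosed.pow_dvd_pow_iff hpos.ne').mp h1
  obtain ⟨c, hc⟩ := hdvb0
  have hlc : ¬ lam ∣ c := by
    rintro ⟨c', hc'⟩
    apply hz0
    have h1 : (lam ^ (m + 1)) ^ p ∣ (lam ^ m * z) ^ p := by
      have h2 : (lam ^ (m + 1)) ^ p ∣ a η₀ := by
        rw [hb₀, hc, hc']
        refine Dvd.dvd.mul_left ?_ _
        exact ⟨c' ^ p, by ring⟩
      have h3 : (lam ^ (m + 1)) ^ p ∣ ε * (lam ^ m * z) ^ p := by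
        rw [← hmul0]; exact h2.mul_right _
      rwa [Units.dvd_mul_left] at h3
    have h2 : lam ^ (m + 1) ∣ lam ^ m * z := (IsIntegrallyClosed.pow_dvd_pow_iff hpos.ne').mp h1
    rw [pow_succ] at h2
    exact (mul_dvd_mul_iff_left (pow_ne_zero m hlam0)).mp h2
  -- the linear relation
  have hrel : a (η₀ * Z) + Z * a (η₀ * Z ^ (p - 1)) = (1 + Z) * a η₀ := by
    apply mul_left_cancel₀ hlam0
    have e0 := ha _ hη₀
    have e1 := ha _ hη₁
    have e2 := ha _ hη₂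
    linear_combination (1 + Z) * e0 - e1 - Z * e2 + η₀ * y * hZZ
  obtain ⟨w, hw⟩ := isUnit_one_add hζ hp2
  obtain ⟨uz, huz⟩ := hZu
  have hb₁n : ¬ lam ∣ b₁ := by
    intro hd
    apply hnd _ hη₁ hne01.symm
    rw [hb₁]
    exact (dvd_pow hd hpos.ne').mul_left _
  have hb₂n : ¬ lam ∣ b₂ := by
    intro hd
    apply hnd _ hη₂ hne02.symm
    rw [hb₂]
    exact (dvd_pow hd hpos.ne').mul_left _
  have hcop12 : IsCoprime b₁ b₂ := by
    have h1 := hcop _ hη₁ _ hη₂ hne12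
    rw [hb₁, hb₂] at h1
    have h2 : IsCoprime (b₁ ^ p) (b₂ ^ p) := by
      have := h1
      rw [isCoprime_mul_unit_left_left u₁.isUnit, isCoprime_mul_unit_left_right u₂.isUnit] at this
      exact this
    exact (IsCoprime.pow_iff hpos hpos).mp h2
  -- the unit δ
  have hu1 : (↑u₁⁻¹ : 𝓞 K) * u₁ = 1 := by simp
  have hmain : b₁ ^ p + ((uz * u₂ * u₁⁻¹ : (𝓞 K)ˣ) : 𝓞 K) * b₂ ^ p
      = ((w * u₀ * u₁⁻¹ : (𝓞 K)ˣ) : 𝓞 K) * (lam ^ m * c) ^ p := by
    rw [hb₁, hb₂, hb₀, hc] at hrel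
    push_cast
    rw [huz, hw, ← hZ]
    linear_combination (↑u₁⁻¹ : 𝓞 K) * hrel - b₁ ^ p * hu1
  obtain ⟨n₁, hn₁⟩ := exists_int_pow hζ b₁
  obtain ⟨n₂, hn₂⟩ := exists_int_pow hζ b₂
  have hpn₂ : ¬ (p : ℤ) ∣ n₂ := by
    intro hd
    have h1 := (lam_dvd_int_iff hζ).mpr hd
    have h2 : lam ∣ b₂ ^ p := by
      have := dvd_add ((lam_dvd_p hζ).trans hn₂) h1
      simpa using this
    exact hb₂n (hlamp.dvd_of_dvd_pow h2)
  obtain ⟨n₂', hn₂'⟩ := exists_int_inv hpn₂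
  have hn₂'' : (p : 𝓞 K) ∣ (n₂ : 𝓞 K) * n₂' - 1 := by
    have := (Int.castRingHom (𝓞 K)).map_dvd hn₂'
    simpa using this
  have hpR : (p : 𝓞 K) ∣ (lam ^ m * c) ^ p := by
    have h1 : (p : 𝓞 K) ∣ lam ^ (p - 1) :=
      (IsCyclotomicExtension.Rat.associated_zeta_sub_one_pow_prime p hζ).symm.dvd
    refine h1.trans ?_
    refine (pow_dvd_pow lam (Nat.sub_le p 1)).trans ?_
    rw [mul_pow, ← pow_mul]
    refine Dvd.dvd.mul_right ?_ _
    exact pow_dvd_pow lam (Nat.le_mul_of_pos_left p hm)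
  set δ : (𝓞 K)ˣ := uz * u₂ * u₁⁻¹ with hδ
  have hδint : ∃ n : ℤ, (p : 𝓞 K) ∣ (δ : 𝓞 K) - n := by
    refine ⟨-(n₁ * n₂'), ?_⟩
    have hsum : (p : 𝓞 K) ∣ b₁ ^ p + (δ : 𝓞 K) * b₂ ^ p := by
      rw [hmain]; exact hpR.mul_left _
    have h1 : (p : 𝓞 K) ∣ (n₁ : 𝓞 K) + δ * n₂ := by
      have := dvd_sub (dvd_sub hsum hn₁) (hn₂.mul_left (δ : 𝓞 K))
      convert this using 1
      ring
    have h2 := dvd_sub (h1.mul_left (n₂' : 𝓞 K)) (hn₂''.mul_left (δ : 𝓞 K))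
    convert h2 using 1
    push_cast
    ring
  obtain ⟨v, hv⟩ := hKum δ hδint
  refine ⟨b₁, v * b₂, c, w * u₀ * u₁⁻¹, ?_, ?_, hlc, ?_⟩
  · exact (isCoprime_mul_unit_left_right v.isUnit _ _).mpr hcop12
  · rwa [Units.dvd_mul_left]
  · rw [← hmain, mul_pow, ← hv]
    push_cast
    ring

/-- **Case II**. -/
theorem caseTwo [IsPrincipalIdealRing (𝓞 K)] (hp2 : 2 < p)
    (hKum : ∀ u : (𝓞 K)ˣ, (∃ n : ℤ, (p : 𝓞 K) ∣ (u : 𝓞 K) - n) → ∃ v : (𝓞 K)ˣ, v ^ p = u)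
    (m : ℕ) : ∀ {x y z : 𝓞 K} {ε : (𝓞 K)ˣ}, IsCoprime x y →
    ¬ hζ.toInteger - 1 ∣ y → ¬ hζ.toInteger - 1 ∣ z →
    x ^ p + y ^ p ≠ ε * ((hζ.toInteger - 1) ^ (m + 1) * z) ^ p := by
  induction m with
  | zero =>
    intro x y z ε hxy hy hz h
    exact absurd (caseTwo_step hζ hp2 hKum hxy hy hz h).1 (lt_irrefl 0)
  | succ m ih =>
    intro x y z ε hxy hy hz h
    obtain ⟨-, x', y', z', ε', h1, h2, h3, h4⟩ := caseTwo_step hζ hp2 hKum hxy hy hz h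
    exact ih h1 h2 h3 h4

end Fermat.Agent.KummerFLT
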