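import Mathlib
import Fermat.Agent.KummerFLT.Basic
import Fermat.Agent.KummerFLT.CaseOne
import Fermat.Agent.KummerFLT.CaseTwo

/-!
# FLT for exponent `p`, assuming `ℤ[ζ_p]` is a PID and Kummer's lemma
-/

set_option autoImplicit false

open NumberField IsCyclotomicExtension IsCyclotomicExtension.Rat Polynomial

namespace Fermat.Agent.KummerFLT

variable {p : ℕ} [hp : Fact p.Prime] {K : Type} [Field K] [NumberField K]
  [IsCyclotomicExtension {p} ℚ K] {ζ : K} (hζ : IsPrimitiveRoot ζ p)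

include hζ in
theorem caseTwoInt [IsPrincipalIdealRing (𝓞 K)] (hp2 : 2 < p)
    (hKum : ∀ u : (𝓞 K)ˣ, (∃ n : ℤ, (p : 𝓞 K) ∣ (u : 𝓞 K) - n) → ∃ v : (𝓞 K)ˣ, v ^ p = u)
    {a b c : ℤ} (hab : IsCoprime a b) (hc : c ≠ 0) (hpc : (p : ℤ) ∣ c)
    (h : a ^ p + b ^ p = c ^ p) : False := by
  have hpP : Prime (p : ℤ) := Nat.prime_iff_prime_int.mp hp.out
  have hpb : ¬ (p : ℤ) ∣ b := by
    intro hb
    have h1 : (p : ℤ) ∣ a ^ p := by
      have h2 : (p : ℤ) ∣ c ^ p := dvd_pow hpc hp.out.ne_zero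
      have h3 : (p : ℤ) ∣ b ^ p := dvd_pow hb hp.out.ne_zero
      have := dvd_sub h2 h3
      rwa [← h, add_sub_cancel_right] at this
    have h2 := hpP.dvd_of_dvd_pow h1
    exact hpP.not_unit (hab.isUnit_of_dvd' h2 hb)
  -- write c = p ^ k * c'
  have hfin : FiniteMultiplicity (p : ℤ) c :=
    Int.finiteMultiplicity_iff.mpr ⟨by
      rw [Int.natAbs_natCast]; exact hp.out.ne_one, hc⟩
  obtain ⟨c', hc', hc'p⟩ := hfin.exists_eq_pow_mul_and_not_dvd
  set k := multiplicity (p : ℤ) c with hk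
  have hk0 : 0 < k := by
    rcases Nat.eq_zero_or_pos k with h0 | h0
    · rw [h0, pow_zero, one_mul] at hc'
      exact absurd (hc' ▸ hpc) hc'p
    · exact h0
  obtain ⟨u, hu⟩ := IsCyclotomicExtension.Rat.associated_zeta_sub_one_pow_prime p hζ
  obtain ⟨m, hm⟩ : ∃ m, (p - 1) * k = m + 1 := by
    refine ⟨(p - 1) * k - 1, ?_⟩
    have : 0 < (p - 1) * k := Nat.mul_pos (by omega) hk0
    omega
  have hcc : (c : 𝓞 K) = ((u ^ k : (𝓞 K)ˣ) : 𝓞 K) * ((hζ.toInteger - 1) ^ (m + 1) * (c' : 𝓞 K)) := by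
    rw [← hm, pow_mul]
    have : (c : 𝓞 K) = (p : 𝓞 K) ^ k * c' := by
      rw [hc']; push_cast; ring
    rw [this, ← hu, mul_pow]
    push_cast
    ring
  refine caseTwo hζ hp2 hKum m (x := (a : 𝓞 K)) (y := (b : 𝓞 K)) (z := (c' : 𝓞 K))
    (ε := (u ^ k) ^ p) ?_ ?_ ?_ ?_
  · have := hab.map (Int.castRingHom (𝓞 K))
    simpa using this
  · rwa [lam_dvd_int_iff hζ]
  · rwa [lam_dvd_int_iff hζ]
  · have h1 := congrArg (fun t : ℤ => (t : 𝓞 K)) h
    push_cast at h1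
    rw [h1, hcc, mul_pow, Units.val_pow_eq_pow_val (u ^ k) p]

include hζ in
/-- FLT for the prime exponent `p ≥ 5`, assuming `𝓞 K` is a PID and Kummer's lemma. -/
theorem flt_of_pid_of_kummer [IsPrincipalIdealRing (𝓞 K)] (hp5 : 5 ≤ p)
    (hKum : ∀ u : (𝓞 K)ˣ, (∃ n : ℤ, (p : 𝓞 K) ∣ (u : 𝓞 K) - n) → ∃ v : (𝓞 K)ˣ, v ^ p = u)
    {a b c : ℤ} (ha : a ≠ 0) (hb : b ≠ 0) (hc : c ≠ 0) (hab : IsCoprime a b)
    (h : a ^ p + b ^ p = c ^ p) : False := by
  have hodd : Odd p := hp.out.odd_of_ne_two (by omega)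
  have hpos := hp.out.pos
  have hcb : IsCoprime c b := by
    have h2 : IsCoprime (a ^ p) (b ^ p) := hab.pow
    have h3 : IsCoprime (c ^ p) (b ^ p) := by
      rw [← h]
      have := h2.add_mul_left_left 1
      simpa using this
    exact (IsCoprime.pow_iff hpos hpos).mp h3
  have hca : IsCoprime c a := by
    have h2 : IsCoprime (b ^ p) (a ^ p) := hab.symm.pow
    have h3 : IsCoprime (c ^ p) (a ^ p) := by
      rw [← h]
      have := h2.add_mul_left_left 1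
      simpa [add_comm] using this
    exact (IsCoprime.pow_iff hpos hpos).mp h3
  by_cases h1 : (p : ℤ) ∣ c
  · exact caseTwoInt hζ (by omega) hKum hab hc h1 h
  by_cases h2 : (p : ℤ) ∣ a
  · refine caseTwoInt hζ (by omega) hKum (a := c) (b := -b) (c := a) hcb.neg_right ha h2 ?_
    rw [hodd.neg_pow]; linarith
  by_cases h3 : (p : ℤ) ∣ b
  · refine caseTwoInt hζ (by omega) hKum (a := c) (b := -a) (c := b) hca.neg_right hb h3 ?_
    rw [hodd.neg_pow]; linarith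
  exact caseOne hζ hp5 hab h2 h3 h1 h

end Fermat.Agent.KummerFLT
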