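import Mathlib
import Fermat.Agent.KummerFLT.Basic

/-!
# Kummer's lemma from an explicit echelon family of units
-/

set_option autoImplicit false

open NumberField IsCyclotomicExtension IsCyclotomicExtension.Rat Polynomial

namespace Fermat.Agent.KummerFLT

section group

variable {G : Type*} [CommGroup G]

/-- `x ^ a` is `x ^ k` times a `p`-th power with `0 ≤ k < p`. -/
theorem zpow_eq_pow_mul_pow {p : ℕ} (hp : 0 < p) (x : G) (a : ℤ) :
    ∃ (k : Fin p) (y : G), x ^ a = x ^ (k : ℕ) * y ^ p := by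
  refine ⟨⟨(a % p).toNat, ?_⟩, x ^ (a / p), ?_⟩
  · have h1 := Int.emod_nonneg a (b := (p : ℤ)) (by exact_mod_cast hp.ne')
    have h2 := Int.emod_lt_of_pos a (b := (p : ℤ)) (by exact_mod_cast hp)
    omega
  · have h1 := Int.emod_nonneg a (b := (p : ℤ)) (by exact_mod_cast hp.ne')
    rw [← zpow_natCast, ← zpow_natCast, ← zpow_mul, ← zpow_add]
    congr 1
    simp only
    rw [Int.toNat_of_nonneg h1]
    have := Int.emod_add_mul_ediv a p
    linarith [mul_comm (a / p) (p : ℤ)]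

end group

variable {p : ℕ} [hp : Fact p.Prime] {K : Type} [Field K] [NumberField K]
  [IsCyclotomicExtension {p} ℚ K] {ζ : K} (hζ : IsPrimitiveRoot ζ p)

/-- units congruent to an integer mod `λ ^ s`. -/
def unitsFil (s : ℕ) (hs : s ≤ p - 1) : Subgroup (𝓞 K)ˣ where
  carrier := {u | ∃ n : ℤ, ¬ (p : ℤ) ∣ n ∧ (hζ.toInteger - 1) ^ s ∣ (u : 𝓞 K) - n}
  mul_mem' := by
    rintro u v ⟨n, hn, hn'⟩ ⟨m, hm, hm'⟩
    refine ⟨n * m, ?_, ?_⟩
    · intro h
      rcases (Nat.prime_iff_prime_int.mp hp.out).dvd_or_dvd h with h | h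
      · exact hn h
      · exact hm h
    · have := dvd_add (hn'.mul_right (v : 𝓞 K)) (hm'.mul_left (n : 𝓞 K))
      convert this using 1
      push_cast
      ring
  one_mem' := by
    refine ⟨1, ?_, by simp⟩
    intro h
    exact (Nat.prime_iff_prime_int.mp hp.out).not_unit (isUnit_of_dvd_one h)
  inv_mem' := by
    rintro u ⟨n, hn, hn'⟩
    obtain ⟨m, hm⟩ := exists_int_inv hn
    refine ⟨m, ?_, ?_⟩
    · intro h
      have h1 : (p : ℤ) ∣ 1 := by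
        have := dvd_sub (h.mul_left n) hm
        simpa using this
      exact (Nat.prime_iff_prime_int.mp hp.out).not_unit (isUnit_of_dvd_one h1)
    · have h1 : (p : 𝓞 K) ∣ (n : 𝓞 K) * m - 1 := by
        have := (Int.castRingHom (𝓞 K)).map_dvd hm
        simpa using this
      have h2 : (hζ.toInteger - 1) ^ s ∣ (n : 𝓞 K) * m - 1 :=
        ((pow_dvd_pow _ hs).trans (lam_pow_dvd_p hζ)).trans h1
      have h3 := (dvd_add (hn'.mul_right (m : 𝓞 K)) h2).mul_left (-(↑u⁻¹ : 𝓞 K))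
      have h4 : (↑u⁻¹ : 𝓞 K) * u = 1 := by simp
      convert h3 using 1
      linear_combination (m : 𝓞 K) * h4

theorem mem_unitsFil {s : ℕ} {hs : s ≤ p - 1} {u : (𝓞 K)ˣ} :
    u ∈ unitsFil hζ s hs ↔ ∃ n : ℤ, ¬ (p : ℤ) ∣ n ∧ (hζ.toInteger - 1) ^ s ∣ (u : 𝓞 K) - n :=
  Iff.rfl

theorem unitsFil_anti {s t : ℕ} (hst : s ≤ t) (ht : t ≤ p - 1) {u : (𝓞 K)ˣ}
    (hu : u ∈ unitsFil hζ t ht) : u ∈ unitsFil hζ s (hst.trans ht) := by
  obtain ⟨n, hn, hn'⟩ := hu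
  exact ⟨n, hn, (pow_dvd_pow _ hst).trans hn'⟩

theorem not_dvd_of_unit {u : (𝓞 K)ˣ} {n : ℤ} (h : hζ.toInteger - 1 ∣ (u : 𝓞 K) - n) :
    ¬ (p : ℤ) ∣ n := by
  intro hn
  have h1 := (lam_dvd_int_iff hζ).mpr hn
  have h2 := dvd_add h h1
  rw [sub_add_cancel] at h2
  exact (lam_prime hζ).not_unit (isUnit_of_dvd_unit h2 u.isUnit)

theorem mem_unitsFil_of_int {s : ℕ} {hs : s ≤ p - 1} (hs0 : 0 < s) {u : (𝓞 K)ˣ} {n : ℤ}
    (h : (hζ.toInteger - 1) ^ s ∣ (u : 𝓞 K) - n) : u ∈ unitsFil hζ s hs :=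
  ⟨n, not_dvd_of_unit hζ ((dvd_pow_self _ hs0.ne').trans h), h⟩

theorem pow_mem_unitsFil {s : ℕ} (hs : s ≤ p - 1) (u : (𝓞 K)ˣ) : u ^ p ∈ unitsFil hζ s hs := by
  obtain ⟨n, hn⟩ := exists_int_pow hζ (u : 𝓞 K)
  have hpp : 0 < p - 1 := by have := hp.out.two_le; omega
  apply unitsFil_anti hζ hs le_rfl
  apply mem_unitsFil_of_int hζ hpp (n := n)
  rw [Units.val_pow_eq_pow_val]
  exact (lam_pow_dvd_p hζ).trans hn

/-- if `u ≡ n + d λ^s mod λ^{s+1}` with `p ∤ d` then `u ∉ U_{s+1}`. -/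
theorem not_mem_unitsFil {s : ℕ} (hs : s + 1 ≤ p - 1) {u : (𝓞 K)ˣ} {c d : ℤ}
    (hd : ¬ (p : ℤ) ∣ d)
    (h : (hζ.toInteger - 1) ^ (s + 1) ∣ (u : 𝓞 K) - (c + d * (hζ.toInteger - 1) ^ s)) (hs0 : 0 < s) :
    u ∉ unitsFil hζ (s + 1) hs := by
  rintro ⟨n, hn, hn'⟩
  set lam := hζ.toInteger - 1 with hlam
  have hlamp : Prime lam := lam_prime hζ
  have h1 : lam ^ (s + 1) ∣ ((c - n : ℤ) : 𝓞 K) + d * lam ^ s := by
    have := dvd_sub hn' h
    convert this using 1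
    push_cast
    ring
  have h2 : lam ∣ ((c - n : ℤ) : 𝓞 K) := by
    have e1 : lam ∣ ((c - n : ℤ) : 𝓞 K) + d * lam ^ s := (dvd_pow_self _ (by omega)).trans h1
    have e2 : lam ∣ (d : 𝓞 K) * lam ^ s := (dvd_pow_self _ hs0.ne').mul_left _
    have := dvd_sub e1 e2
    rwa [add_sub_cancel_right] at this
  have h3 := (lam_dvd_int_iff hζ).mp h2
  have h4 : (p : 𝓞 K) ∣ ((c - n : ℤ) : 𝓞 K) := by
    have := (Int.castRingHom (𝓞 K)).map_dvd h3
    simpa using this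
  have h5 : lam ^ (s + 1) ∣ ((c - n : ℤ) : 𝓞 K) :=
    ((pow_dvd_pow _ hs).trans (lam_pow_dvd_p hζ)).trans h4
  have h6 : lam ^ (s + 1) ∣ (d : 𝓞 K) * lam ^ s := by
    have := dvd_sub h1 h5
    rwa [add_sub_cancel_left] at this
  rw [pow_succ, mul_comm (d : 𝓞 K)] at h6
  have h7 := (mul_dvd_mul_iff_left (pow_ne_zero s hlamp.ne_zero)).mp h6
  exact hd ((lam_dvd_int_iff hζ).mp h7)

/-- if a `k`-th power with `p ∤ k` is in `U_s` then so is the unit. -/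
theorem mem_of_zpow_mem {s : ℕ} (hs : s ≤ p - 1) {u : (𝓞 K)ˣ} {k : ℤ} (hk : ¬ (p : ℤ) ∣ k)
    (h : u ^ k ∈ unitsFil hζ s hs) : u ∈ unitsFil hζ s hs := by
  obtain ⟨m, q, hq⟩ := exists_int_inv hk
  have h1 : u = (u ^ k) ^ m * ((u ^ p) ^ q)⁻¹ := by
    rw [← zpow_mul, ← zpow_natCast u p, ← zpow_mul, ← zpow_neg, ← zpow_add]
    have : k * m + -(p * q) = 1 := by linarith
    rw [this, zpow_one]
  rw [h1]
  exact mul_mem (Subgroup.zpow_mem _ h _)
    (inv_mem (Subgroup.zpow_mem _ (pow_mem_unitsFil hζ hs u) _))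

/-- independence of echelon units. -/
theorem echelon_indep {n : ℕ} (e : Fin n → (𝓞 K)ˣ) (v : Fin n → ℕ) (hv : StrictMono v)
    (hvlt : ∀ j, v j + 1 ≤ p - 1)
    (h1 : ∀ j, e j ∈ unitsFil hζ (v j) (by have := hvlt j; omega))
    (h2 : ∀ j, e j ∉ unitsFil hζ (v j + 1) (hvlt j)) (d : Fin n → ℤ)
    (hd : ∏ j, e j ^ d j ∈ unitsFil hζ (p - 1) le_rfl) (j : Fin n) : (p : ℤ) ∣ d j := by
  classical
  induction j using WellFoundedLT.induction with
  | ind j ih =>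
    by_contra hj
    apply h2 j
    apply mem_of_zpow_mem hζ (hvlt j) hj
    have hprod : e j ^ d j = (∏ i, e i ^ d i) * (∏ i ∈ Finset.univ.erase j, e i ^ d i)⁻¹ := by
      rw [← Finset.mul_prod_erase Finset.univ (fun i => e i ^ d i) (Finset.mem_univ j)]
      rw [mul_inv_cancel_right]
    rw [hprod]
    refine mul_mem (unitsFil_anti hζ (hvlt j) le_rfl hd) (inv_mem ?_)
    refine Subgroup.prod_mem _ ?_
    intro i hi
    have hij : i ≠ j := Finset.ne_of_mem_erase hi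
    rcases lt_or_gt_of_ne hij with h | h
    · obtain ⟨q, hq⟩ := ih i h
      rw [hq, zpow_mul, zpow_natCast]
      exact Subgroup.zpow_mem _ (pow_mem_unitsFil hζ _ _) _
    · refine Subgroup.zpow_mem _ ?_ _
      have h3 : v j + 1 ≤ v i := hv h
      exact unitsFil_anti hζ h3 (by have := hvlt i; omega) (h1 i)

/-- **Kummer's lemma** from an echelon family. -/
theorem kummer_of_echelon {n : ℕ} (hn : n = Units.rank K + 1) (e : Fin n → (𝓞 K)ˣ)
    (v : Fin n → ℕ) (hv : StrictMono v)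
    (hvlt : ∀ j, v j + 1 ≤ p - 1)
    (h1 : ∀ j, e j ∈ unitsFil hζ (v j) (by have := hvlt j; omega))
    (h2 : ∀ j, e j ∉ unitsFil hζ (v j + 1) (hvlt j))
    (u : (𝓞 K)ˣ) (hu : ∃ n : ℤ, (p : 𝓞 K) ∣ (u : 𝓞 K) - n) : ∃ w : (𝓞 K)ˣ, w ^ p = u := by
  classical
  have hpos : 0 < p := hp.out.pos
  haveI : NeZero p := ⟨hpos.ne'⟩
  have hpp : 0 < p - 1 := by have := hp.out.two_le; omega
  set P : Subgroup (𝓞 K)ˣ := (powMonoidHom p : (𝓞 K)ˣ →* (𝓞 K)ˣ).range with hP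
  have hmemP : ∀ x, x ∈ P ↔ ∃ y : (𝓞 K)ˣ, y ^ p = x := by
    intro x; rw [hP, MonoidHom.mem_range]; rfl
  have hPsub : ∀ x ∈ P, x ∈ unitsFil hζ (p - 1) le_rfl := by
    intro x hx
    obtain ⟨y, rfl⟩ := (hmemP x).mp hx
    exact pow_mem_unitsFil hζ le_rfl y
  obtain ⟨t, ht⟩ := IsCyclic.exists_generator (α := NumberField.Units.torsion K)
  -- surjection from a finite set
  let g : Fin p × (Fin (Units.rank K) → Fin p) → (𝓞 K)ˣ ⧸ P := fun q =>
    QuotientGroup.mk ((t : (𝓞 K)ˣ) ^ (q.1 : ℕ) * ∏ i, (Units.fundSystem K i) ^ (q.2 i : ℕ))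
  have hg : Function.Surjective g := by
    intro x
    obtain ⟨x, rfl⟩ := QuotientGroup.mk_surjective x
    obtain ⟨⟨z, f⟩, hx, -⟩ := Units.exist_unique_eq_mul_prod K x
    simp only at hx
    obtain ⟨a, ha⟩ := Subgroup.mem_zpowers_iff.mp (ht z)
    obtain ⟨k, y, hk⟩ := zpow_eq_pow_mul_pow hpos (t : (𝓞 K)ˣ) a
    choose kf yf hkf using fun i => zpow_eq_pow_mul_pow hpos (Units.fundSystem K i) (f i)
    refine ⟨(k, kf), ?_⟩
    simp only [g]
    rw [QuotientGroup.eq, hmemP]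
    refine ⟨y * ∏ i, yf i, ?_⟩
    have hz : (z : (𝓞 K)ˣ) = (t : (𝓞 K)ˣ) ^ a := by
      rw [← ha]; simp
    rw [hx, hz, hk, Finset.prod_congr rfl (fun i _ => hkf i), Finset.prod_mul_distrib,
      Finset.prod_pow, mul_pow]
    rw [eq_inv_mul_iff_mul_eq]
    exact mul_mul_mul_comm _ _ _ _
  have hfin : Finite ((𝓞 K)ˣ ⧸ P) := Finite.of_surjective g hg
  have hcard : Nat.card ((𝓞 K)ˣ ⧸ P) ≤ p ^ n := by
    have h3 := Nat.card_le_card_of_surjective g hg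
    have h4 : Nat.card (Fin p × (Fin (Units.rank K) → Fin p)) = p ^ n := by
      rw [Nat.card_prod, Nat.card_fun, Nat.card_eq_fintype_card, Nat.card_eq_fintype_card,
        Fintype.card_fin, Fintype.card_fin, hn, pow_succ, mul_comm]
    rwa [h4] at h3
  let f : (Fin n → Fin p) → (𝓞 K)ˣ ⧸ P := fun k => QuotientGroup.mk (∏ j, e j ^ (k j : ℕ))
  have hf : Function.Injective f := by
    intro k l hkl
    simp only [f] at hkl
    rw [QuotientGroup.eq] at hkl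
    have h3 := hPsub _ hkl
    have h4 : (∏ j, e j ^ (k j : ℕ))⁻¹ * ∏ j, e j ^ (l j : ℕ)
        = ∏ j, e j ^ ((l j : ℤ) - (k j : ℤ)) := by
      rw [← Finset.prod_inv_distrib, ← Finset.prod_mul_distrib]
      refine Finset.prod_congr rfl (fun j _ => ?_)
      rw [zpow_sub, zpow_natCast, zpow_natCast, mul_comm]
    rw [h4] at h3
    funext j
    have h5 := echelon_indep hζ e v hv hvlt h1 h2 _ h3 j
    have h6 := (l j).2
    have h7 := (k j).2
    have h8 : (l j : ℤ) - (k j : ℤ) = 0 := by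
      apply Int.eq_zero_of_abs_lt_dvd h5
      rw [abs_lt]
      constructor <;> omega
    apply Fin.ext
    omega
  have hbij : Function.Bijective f := by
    apply Function.Injective.bijective_of_nat_card_le hf
    have h3 : Nat.card (Fin n → Fin p) = p ^ n := by simp
    rw [h3]
    exact hcard
  obtain ⟨k, hk⟩ := hbij.2 (QuotientGroup.mk u)
  simp only [f] at hk
  rw [QuotientGroup.eq, hmemP] at hk
  obtain ⟨w, hw⟩ := hk
  have hu' : u ∈ unitsFil hζ (p - 1) le_rfl := by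
    obtain ⟨m, hm⟩ := hu
    exact mem_unitsFil_of_int hζ hpp ((lam_pow_dvd_p hζ).trans hm)
  have h3 : ∏ j, e j ^ (k j : ℤ) ∈ unitsFil hζ (p - 1) le_rfl := by
    have h4 : ∏ j, e j ^ (k j : ℤ) = u * (w ^ p)⁻¹ := by
      rw [hw, mul_inv_rev, inv_inv, ← mul_assoc, mul_inv_cancel, one_mul]
      refine Finset.prod_congr rfl (fun j _ => ?_)
      rw [zpow_natCast]
    rw [h4]
    exact mul_mem hu' (inv_mem (pow_mem_unitsFil hζ _ _))
  have h4 : ∀ j, (k j : ℕ) = 0 := by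
    intro j
    have h5 := echelon_indep hζ e v hv hvlt h1 h2 _ h3 j
    have h6 : p ∣ (k j : ℕ) := by exact_mod_cast h5
    exact Nat.eq_zero_of_dvd_of_lt h6 (k j).2
  refine ⟨w, ?_⟩
  rw [hw]
  simp [h4]

end Fermat.Agent.KummerFLT
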