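import Mathlib
import Fermat.Agent.KummerFLT.Units

/-!
# Explicit echelon units for `p = 5, 7, 11, 13`

The polynomial identities below were found by computer and are checked by `ring`.
-/

set_option autoImplicit false

open NumberField IsCyclotomicExtension IsCyclotomicExtension.Rat

namespace Fermat.Agent.KummerFLT

/-- Echelon data for one unit. -/
theorem echelon_data {p : ℕ} [hp : Fact p.Prime] {K : Type} [Field K] [NumberField K]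
    [IsCyclotomicExtension {p} ℚ K] {ζ : K} (hζ : IsPrimitiveRoot ζ p) {s : ℕ}
    (hs : s + 1 ≤ p - 1) (hs0 : 0 < s) {u : (𝓞 K)ˣ} {c d : ℤ} (hd : ¬ (p : ℤ) ∣ d) {g : 𝓞 K}
    (h : (u : 𝓞 K) - (c + d * (hζ.toInteger - 1) ^ s) = (hζ.toInteger - 1) ^ (s + 1) * g) :
    u ∈ unitsFil hζ s (by omega) ∧ u ∉ unitsFil hζ (s + 1) hs := by
  refine ⟨?_, not_mem_unitsFil hζ hs hd ⟨g, h⟩ hs0⟩
  refine mem_unitsFil_of_int hζ hs0 (n := c) ⟨(hζ.toInteger - 1) * g + d, ?_⟩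
  rw [pow_succ] at h
  linear_combination h


theorem inv_5_2 {R : Type*} [CommRing R] (z : R) (h : 1 + z + z^2 + z^3 + z^4 = 0) :
    (-1 - z^2 - z^3) *
      (-z^2 - z^3) = 1 := by
  linear_combination (-1 + z + z^2) * h

theorem cong_5_2 {R : Type*} [CommRing R] (z : R) (h : 1 + z + z^2 + z^3 + z^4 = 0) :
    (-1 - z^2 - z^3) - (2 + 1 * (z - 1) ^ 2) =
      (z - 1) ^ 3 * (1 + z + z^2 + z^3) := by
  linear_combination (-3 + 3*z - z^2) * h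


theorem inv_7_2 {R : Type*} [CommRing R] (z : R) (h : 1 + z + z^2 + z^3 + z^4 + z^5 + z^6 = 0) :
    (-1 - z^2 - z^3 - z^4 - z^5) *
      (-1 - z^3 - z^4) = 1 := by
  linear_combination (z^2 + z^3) * h

theorem cong_7_2 {R : Type*} [CommRing R] (z : R) (h : 1 + z + z^2 + z^3 + z^4 + z^5 + z^6 = 0) :
    (-1 - z^2 - z^3 - z^4 - z^5) - (2 + 1 * (z - 1) ^ 2) =
      (z - 1) ^ 3 * (1 + z + z^2 + z^3 + z^4 + z^5) := by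
  linear_combination (-3 + 3*z - z^2) * h


theorem inv_7_4 {R : Type*} [CommRing R] (z : R) (h : 1 + z + z^2 + z^3 + z^4 + z^5 + z^6 = 0) :
    (-3 - 3*z^2 - z^3 - z^4 - 3*z^5) *
      (1 - 2*z^2 - 3*z^3 - 3*z^4 - 2*z^5) = 1 := by
  linear_combination (-4 + 4*z + 3*z^2 + 5*z^3 + 6*z^4) * h

theorem cong_7_4 {R : Type*} [CommRing R] (z : R) (h : 1 + z + z^2 + z^3 + z^4 + z^5 + z^6 = 0) :
    (-3 - 3*z^2 - z^3 - z^4 - 3*z^5) - (3 + -2 * (z - 1) ^ 4) =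
      (z - 1) ^ 5 * (-2 - 3*z - 4*z^2 - 4*z^3 - 3*z^4 - z^5) := by
  linear_combination (-6 + 5*z + z^2 - 3*z^3 + z^4) * h


theorem inv_11_2 {R : Type*} [CommRing R] (z : R) (h : 1 + z + z^2 + z^3 + z^4 + z^5 + z^6 + z^7 + z^8 + z^9 + z^10 = 0) :
    (-1 - z^2 - z^3 - z^4 - z^5 - z^6 - z^7 - z^8 - z^9) *
      (-1 - z^3 - z^4 - z^7 - z^8) = 1 := by
  linear_combination (z^2 + z^3 + z^6 + z^7) * h

theorem cong_11_2 {R : Type*} [CommRing R] (z : R) (h : 1 + z + z^2 + z^3 + z^4 + z^5 + z^6 + z^7 + z^8 + z^9 + z^10 = 0) :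
    (-1 - z^2 - z^3 - z^4 - z^5 - z^6 - z^7 - z^8 - z^9) - (2 + 1 * (z - 1) ^ 2) =
      (z - 1) ^ 3 * (1 + z + z^2 + z^3 + z^4 + z^5 + z^6 + z^7 + z^8 + z^9) := by
  linear_combination (-3 + 3*z - z^2) * h


theorem inv_11_4 {R : Type*} [CommRing R] (z : R) (h : 1 + z + z^2 + z^3 + z^4 + z^5 + z^6 + z^7 + z^8 + z^9 + z^10 = 0) :
    (1 + z^2 - z^3 + z^4 + z^7 - z^8 + z^9) *
      (-3 + 2*z^2 - 2*z^3 - 3*z^4 + z^5 + z^6 - 3*z^7 - 2*z^8 + 2*z^9) = 1 := by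
  linear_combination (-4 + 4*z - z^2 + 2*z^3 - 5*z^4 + z^5 + 5*z^6 - 6*z^7 + 2*z^8) * h

theorem cong_11_4 {R : Type*} [CommRing R] (z : R) (h : 1 + z + z^2 + z^3 + z^4 + z^5 + z^6 + z^7 + z^8 + z^9 + z^10 = 0) :
    (1 + z^2 - z^3 + z^4 + z^7 - z^8 + z^9) - (3 + 4 * (z - 1) ^ 4) =
      (z - 1) ^ 5 * (5 + 4*z + z^2 - 3*z^3 - 7*z^4 - 10*z^5 - 11*z^6 - 10*z^7 - 7*z^8 - 3*z^9) := by
  linear_combination (-1 - 4*z + 13*z^2 - 11*z^3 + 3*z^4) * h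


theorem inv_11_6 {R : Type*} [CommRing R] (z : R) (h : 1 + z + z^2 + z^3 + z^4 + z^5 + z^6 + z^7 + z^8 + z^9 + z^10 = 0) :
    (3 + 2*z^3 - 2*z^4 + z^5 + z^6 - 2*z^7 + 2*z^8) *
      (-16 + 11*z^2 - 8*z^3 - 14*z^4 + 7*z^5 + 7*z^6 - 14*z^7 - 8*z^8 + 11*z^9) = 1 := by
  linear_combination (-49 + 49*z + 33*z^2 - 89*z^3 + 46*z^4 + 37*z^5 - 60*z^6 + 22*z^7) * h

theorem cong_11_6 {R : Type*} [CommRing R] (z : R) (h : 1 + z + z^2 + z^3 + z^4 + z^5 + z^6 + z^7 + z^8 + z^9 + z^10 = 0) :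
    (3 + 2*z^3 - 2*z^4 + z^5 + z^6 - 2*z^7 + 2*z^8) - (5 + -1 * (z - 1) ^ 6) =
      (z - 1) ^ 7 * (1 + 8*z + 18*z^2 + 28*z^3 + 35*z^4 + 37*z^5 + 33*z^6 + 24*z^7 + 13*z^8 + 4*z^9) := by
  linear_combination (-5*z + 3*z^2 + 19*z^3 - 32*z^4 + 19*z^5 - 4*z^6) * h


theorem inv_11_8 {R : Type*} [CommRing R] (z : R) (h : 1 + z + z^2 + z^3 + z^4 + z^5 + z^6 + z^7 + z^8 + z^9 + z^10 = 0) :
    (9 - 4*z^2 + 4*z^3 + 2*z^4 + z^5 + z^6 + 2*z^7 + 4*z^8 - 4*z^9) *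
      (-108 + 289*z^2 + 668*z^3 + 1016*z^4 + 1223*z^5 + 1223*z^6 + 1016*z^7 + 668*z^8 + 289*z^9) = 1 := by
  linear_combination (-973 + 973*z + 3033*z^2 + 2547*z^3 + 2192*z^4 + 1611*z^5 + 702*z^6 - 360*z^7 - 1156*z^8) * h

theorem cong_11_8 {R : Type*} [CommRing R] (z : R) (h : 1 + z + z^2 + z^3 + z^4 + z^5 + z^6 + z^7 + z^8 + z^9 + z^10 = 0) :
    (9 - 4*z^2 + 4*z^3 + 2*z^4 + z^5 + z^6 + 2*z^7 + 4*z^8 - 4*z^9) - (4 + 1 * (z - 1) ^ 8) =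
      (z - 1) ^ 9 * (-46 - 115*z - 184*z^2 - 231*z^3 - 241*z^4 - 211*z^5 - 151*z^6 - 80*z^7 - 20*z^8 + 10*z^9) := by
  linear_combination (-42 + 349*z - 1144*z^2 + 2046*z^3 - 2199*z^4 + 1451*z^5 - 570*z^6 + 120*z^7 - 10*z^8) * h


theorem inv_13_2 {R : Type*} [CommRing R] (z : R) (h : 1 + z + z^2 + z^3 + z^4 + z^5 + z^6 + z^7 + z^8 + z^9 + z^10 + z^11 + z^12 = 0) :
    (-1 - z^2 - z^3 - z^4 - z^5 - z^6 - z^7 - z^8 - z^9 - z^10 - z^11) *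
      (-z^2 - z^3 - z^6 - z^7 - z^10 - z^11) = 1 := by
  linear_combination (-1 + z + z^2 + z^5 + z^6 + z^9 + z^10) * h

theorem cong_13_2 {R : Type*} [CommRing R] (z : R) (h : 1 + z + z^2 + z^3 + z^4 + z^5 + z^6 + z^7 + z^8 + z^9 + z^10 + z^11 + z^12 = 0) :
    (-1 - z^2 - z^3 - z^4 - z^5 - z^6 - z^7 - z^8 - z^9 - z^10 - z^11) - (2 + 1 * (z - 1) ^ 2) =
      (z - 1) ^ 3 * (1 + z + z^2 + z^3 + z^4 + z^5 + z^6 + z^7 + z^8 + z^9 + z^10 + z^11) := by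
  linear_combination (-3 + 3*z - z^2) * h


theorem inv_13_4 {R : Type*} [CommRing R] (z : R) (h : 1 + z + z^2 + z^3 + z^4 + z^5 + z^6 + z^7 + z^8 + z^9 + z^10 + z^11 + z^12 = 0) :
    (-2 - z^2 - z^3 - 2*z^4 - 2*z^6 - 2*z^7 - 2*z^9 - z^10 - z^11) *
      (2 - 3*z^2 - 3*z^3 - z^4 - z^6 - z^7 - z^9 - 3*z^10 - 3*z^11) = 1 := by
  linear_combination (-5 + 5*z + 4*z^2 - 3*z^4 + 5*z^5 + 2*z^6 - 3*z^7 + 4*z^8 + 3*z^9 + 3*z^10) * h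

theorem cong_13_4 {R : Type*} [CommRing R] (z : R) (h : 1 + z + z^2 + z^3 + z^4 + z^5 + z^6 + z^7 + z^8 + z^9 + z^10 + z^11 + z^12 = 0) :
    (-2 - z^2 - z^3 - 2*z^4 - 2*z^6 - 2*z^7 - 2*z^9 - z^10 - z^11) - (-1 + 3 * (z - 1) ^ 4) =
      (z - 1) ^ 5 * (-2 - 3*z + 6*z^3 + 14*z^4 + 22*z^5 + 28*z^6 + 31*z^7 + 30*z^8 + 25*z^9 + 17*z^10 + 8*z^11) := by
  linear_combination (-6 + 25*z - 43*z^2 + 31*z^3 - 8*z^4) * h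


theorem inv_13_6 {R : Type*} [CommRing R] (z : R) (h : 1 + z + z^2 + z^3 + z^4 + z^5 + z^6 + z^7 + z^8 + z^9 + z^10 + z^11 + z^12 = 0) :
    (2 + z^2 + z^5 + z^6 + z^7 + z^8 + z^11) *
      (-1 + z^2 + z^5 + z^6 + z^7 + z^8 + z^11) = 1 := by
  linear_combination (-3 + 3*z + z^2 - z^3 + z^4 + 2*z^7 - z^9 + z^10) * h

theorem cong_13_6 {R : Type*} [CommRing R] (z : R) (h : 1 + z + z^2 + z^3 + z^4 + z^5 + z^6 + z^7 + z^8 + z^9 + z^10 + z^11 + z^12 = 0) :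
    (2 + z^2 + z^5 + z^6 + z^7 + z^8 + z^11) - (-5 + 4 * (z - 1) ^ 6) =
      (z - 1) ^ 7 * (9 - 14*z - 59*z^2 - 116*z^3 - 173*z^4 - 218*z^5 - 241*z^6 - 236*z^7 - 203*z^8 - 149*z^9 - 87*z^10 - 33*z^11) := by
  linear_combination (12 - 65*z + 222*z^2 - 401*z^3 + 377*z^4 - 177*z^5 + 33*z^6) * h


theorem inv_13_8 {R : Type*} [CommRing R] (z : R) (h : 1 + z + z^2 + z^3 + z^4 + z^5 + z^6 + z^7 + z^8 + z^9 + z^10 + z^11 + z^12 = 0) :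
    (-4 + 7*z^2 + 3*z^3 - 3*z^4 - z^5 + 7*z^6 + 7*z^7 - z^8 - 3*z^9 + 3*z^10 + 7*z^11) *
      (42 - 11*z^2 + 38*z^3 + 14*z^4 - 17*z^5 + 28*z^6 + 28*z^7 - 17*z^8 + 14*z^9 + 38*z^10 - 11*z^11) = 1 := by
  linear_combination (-169 + 169*z + 338*z^2 - 364*z^3 - 233*z^4 + 518*z^5 + 168*z^6 - 425*z^7 + 12*z^8 + 310*z^9 - 77*z^10) * h

theorem cong_13_8 {R : Type*} [CommRing R] (z : R) (h : 1 + z + z^2 + z^3 + z^4 + z^5 + z^6 + z^7 + z^8 + z^9 + z^10 + z^11 + z^12 = 0) :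
    (-4 + 7*z^2 + 3*z^3 - 3*z^4 - z^5 + 7*z^6 + 7*z^7 - z^8 - 3*z^9 + 3*z^10 + 7*z^11) - (-4 + 1 * (z - 1) ^ 8) =
      (z - 1) ^ 9 * (-23 - 77*z - 149*z^2 - 221*z^3 - 275*z^4 - 299*z^5 - 289*z^6 - 248*z^7 - 185*z^8 - 114*z^9 - 51*z^10 - 10*z^11) := by
  linear_combination (-24 + 162*z - 443*z^2 + 644*z^3 - 492*z^4 + 140*z^5 + 54*z^6 - 49*z^7 + 10*z^8) * h


theorem inv_13_10 {R : Type*} [CommRing R] (z : R) (h : 1 + z + z^2 + z^3 + z^4 + z^5 + z^6 + z^7 + z^8 + z^9 + z^10 + z^11 + z^12 = 0) :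
    (31 - 77*z^2 - 136*z^3 - 112*z^4 - 31*z^5 + 29*z^6 + 29*z^7 - 31*z^8 - 112*z^9 - 136*z^10 - 77*z^11) *
      (62 - 105*z^2 - 46*z^3 + 60*z^4 + 31*z^5 - 81*z^6 - 81*z^7 + 31*z^8 + 60*z^9 - 46*z^10 - 105*z^11) = 1 := by
  linear_combination (1921 - 1921*z - 8029*z^2 - 1829*z^3 + 12859*z^4 + 13860*z^5 - 4178*z^6 - 15536*z^7 - 4426*z^8 + 9737*z^9 + 8085*z^10) * h

theorem cong_13_10 {R : Type*} [CommRing R] (z : R) (h : 1 + z + z^2 + z^3 + z^4 + z^5 + z^6 + z^7 + z^8 + z^9 + z^10 + z^11 + z^12 = 0) :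
    (31 - 77*z^2 - 136*z^3 - 112*z^4 - 31*z^5 + 29*z^6 + 29*z^7 - 31*z^8 - 112*z^9 - 136*z^10 - 77*z^11) - (1 + 5 * (z - 1) ^ 10) =
      (z - 1) ^ 11 * (3812 + 8881*z + 13950*z^2 + 17757*z^3 + 19416*z^4 + 18632*z^5 + 15695*z^6 + 11318*z^7 + 6439*z^8 + 2062*z^9 - 875*z^10 - 1659*z^11) := by
  linear_combination (3837 - 36838*z + 158618*z^2 - 401371*z^3 + 658526*z^4 - 732016*z^5 + 558563*z^6 - 288925*z^7 + 96932*z^8 - 19033*z^9 + 1659*z^10) * h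


end Fermat.Agent.KummerFLT
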