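import Mathlib
import Fermat.Agent.KummerFLT.Units
import Fermat.Agent.KummerFLT.EchelonIdent

/-!
# Kummer's lemma for `p = 5, 7, 11, 13`
-/

set_option autoImplicit false

open NumberField IsCyclotomicExtension IsCyclotomicExtension.Rat InfinitePlace

namespace Fermat.Agent.KummerFLT

theorem rank_add_one {p : ℕ} [hp : Fact p.Prime] (K : Type) [Field K] [NumberField K]
    [IsCyclotomicExtension {p} ℚ K] (hp2 : 2 < p) : Units.rank K + 1 = (p - 1) / 2 := by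
  have h1 : Fintype.card (InfinitePlace K) = (p - 1) / 2 := by
    rw [card_eq_nrRealPlaces_add_nrComplexPlaces, nrRealPlaces_eq_zero (n := p) K hp2,
      nrComplexPlaces_eq_totient_div_two (h := inferInstance) p, Nat.totient_prime hp.out, zero_add]
  have h2 : 0 < Fintype.card (InfinitePlace K) := Fintype.card_pos
  rw [Units.rank]
  omega

/-- Kummer's lemma from echelon data. -/
theorem kummer_of_data {p : ℕ} [hp : Fact p.Prime] {K : Type} [Field K] [NumberField K]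
    [IsCyclotomicExtension {p} ℚ K] {ζ : K} (hζ : IsPrimitiveRoot ζ p) (hp2 : 2 < p) {n : ℕ}
    (hn : n = (p - 1) / 2) (e : Fin n → (𝓞 K)ˣ)
    (v : Fin n → ℕ) (hv : StrictMono v) (hvlt : ∀ j, v j + 1 ≤ p - 1) (hv0 : ∀ j, 0 < v j)
    (h : ∀ j, ∃ (c d : ℤ) (g : 𝓞 K), ¬ (p : ℤ) ∣ d ∧
      (e j : 𝓞 K) - (c + d * (hζ.toInteger - 1) ^ (v j)) = (hζ.toInteger - 1) ^ (v j + 1) * g)
    (u : (𝓞 K)ˣ) (hu : ∃ n : ℤ, (p : 𝓞 K) ∣ (u : 𝓞 K) - n) : ∃ w : (𝓞 K)ˣ, w ^ p = u := by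
  refine kummer_of_echelon hζ (hn.trans (rank_add_one K hp2).symm) e v hv hvlt ?_ ?_ u hu
  · intro j
    obtain ⟨c, d, g, hd, hg⟩ := h j
    exact (echelon_data hζ (hvlt j) (hv0 j) hd hg).1
  · intro j
    obtain ⟨c, d, g, hd, hg⟩ := h j
    exact (echelon_data hζ (hvlt j) (hv0 j) hd hg).2


theorem kummer_5 {K : Type} [Field K] [NumberField K]
    [IsCyclotomicExtension {5} ℚ K] {ζ : K} (hζ : IsPrimitiveRoot ζ 5)
    (u : (𝓞 K)ˣ) (hu : ∃ n : ℤ, ((5 : ℕ) : 𝓞 K) ∣ (u : 𝓞 K) - n) : ∃ w : (𝓞 K)ˣ, w ^ 5 = u := by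
  have : Fact (Nat.Prime 5) := ⟨by norm_num⟩
  have hΦ : 1 + hζ.toInteger + hζ.toInteger^2 + hζ.toInteger^3 + hζ.toInteger^4 = 0 := by
    have := hζ.toInteger_isPrimitiveRoot.geom_sum_eq_zero (by norm_num)
    simpa [Finset.sum_range_succ] using this
  let uz : (𝓞 K)ˣ := (hζ.toInteger_isPrimitiveRoot.isUnit (by norm_num)).unit
  have huz : (uz : 𝓞 K) = hζ.toInteger := IsUnit.unit_spec _
  let u2 : (𝓞 K)ˣ := Units.mkOfMulEqOne _ _ (inv_5_2 hζ.toInteger hΦ)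
  refine kummer_of_data hζ (by norm_num) (n := 2) (by norm_num)
    ![uz, u2] ![1, 2]
    (Fin.strictMono_iff_lt_succ.2 (by decide)) (by decide) (by decide) ?_ u hu
  intro j
  fin_cases j
  · exact ⟨1, 1, 0, by norm_num, by
      push_cast
      show (uz : 𝓞 K) - (1 + 1 * (hζ.toInteger - 1) ^ 1) = (hζ.toInteger - 1) ^ (1 + 1) * 0
      rw [huz]; ring⟩
  · exact ⟨2, 1, _, by norm_num, by
      have := cong_5_2 hζ.toInteger hΦ
      push_cast
      exact this⟩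


theorem kummer_7 {K : Type} [Field K] [NumberField K]
    [IsCyclotomicExtension {7} ℚ K] {ζ : K} (hζ : IsPrimitiveRoot ζ 7)
    (u : (𝓞 K)ˣ) (hu : ∃ n : ℤ, ((7 : ℕ) : 𝓞 K) ∣ (u : 𝓞 K) - n) : ∃ w : (𝓞 K)ˣ, w ^ 7 = u := by
  have : Fact (Nat.Prime 7) := ⟨by norm_num⟩
  have hΦ : 1 + hζ.toInteger + hζ.toInteger^2 + hζ.toInteger^3 + hζ.toInteger^4 + hζ.toInteger^5 + hζ.toInteger^6 = 0 := by
    have := hζ.toInteger_isPrimitiveRoot.geom_sum_eq_zero (by norm_num)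
    simpa [Finset.sum_range_succ] using this
  let uz : (𝓞 K)ˣ := (hζ.toInteger_isPrimitiveRoot.isUnit (by norm_num)).unit
  have huz : (uz : 𝓞 K) = hζ.toInteger := IsUnit.unit_spec _
  let u2 : (𝓞 K)ˣ := Units.mkOfMulEqOne _ _ (inv_7_2 hζ.toInteger hΦ)
  let u4 : (𝓞 K)ˣ := Units.mkOfMulEqOne _ _ (inv_7_4 hζ.toInteger hΦ)
  refine kummer_of_data hζ (by norm_num) (n := 3) (by norm_num)
    ![uz, u2, u4] ![1, 2, 4]
    (Fin.strictMono_iff_lt_succ.2 (by decide)) (by decide) (by decide) ?_ u hu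
  intro j
  fin_cases j
  · exact ⟨1, 1, 0, by norm_num, by
      push_cast
      show (uz : 𝓞 K) - (1 + 1 * (hζ.toInteger - 1) ^ 1) = (hζ.toInteger - 1) ^ (1 + 1) * 0
      rw [huz]; ring⟩
  · exact ⟨2, 1, _, by norm_num, by
      have := cong_7_2 hζ.toInteger hΦ
      push_cast
      exact this⟩
  · exact ⟨3, -2, _, by norm_num, by
      have := cong_7_4 hζ.toInteger hΦ
      push_cast
      exact this⟩


theorem kummer_11 {K : Type} [Field K] [NumberField K]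
    [IsCyclotomicExtension {11} ℚ K] {ζ : K} (hζ : IsPrimitiveRoot ζ 11)
    (u : (𝓞 K)ˣ) (hu : ∃ n : ℤ, ((11 : ℕ) : 𝓞 K) ∣ (u : 𝓞 K) - n) : ∃ w : (𝓞 K)ˣ, w ^ 11 = u := by
  have : Fact (Nat.Prime 11) := ⟨by norm_num⟩
  have hΦ : 1 + hζ.toInteger + hζ.toInteger^2 + hζ.toInteger^3 + hζ.toInteger^4 + hζ.toInteger^5 + hζ.toInteger^6 + hζ.toInteger^7 + hζ.toInteger^8 + hζ.toInteger^9 + hζ.toInteger^10 = 0 := by
    have := hζ.toInteger_isPrimitiveRoot.geom_sum_eq_zero (by norm_num)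
    simpa [Finset.sum_range_succ] using this
  let uz : (𝓞 K)ˣ := (hζ.toInteger_isPrimitiveRoot.isUnit (by norm_num)).unit
  have huz : (uz : 𝓞 K) = hζ.toInteger := IsUnit.unit_spec _
  let u2 : (𝓞 K)ˣ := Units.mkOfMulEqOne _ _ (inv_11_2 hζ.toInteger hΦ)
  let u4 : (𝓞 K)ˣ := Units.mkOfMulEqOne _ _ (inv_11_4 hζ.toInteger hΦ)
  let u6 : (𝓞 K)ˣ := Units.mkOfMulEqOne _ _ (inv_11_6 hζ.toInteger hΦ)
  let u8 : (𝓞 K)ˣ := Units.mkOfMulEqOne _ _ (inv_11_8 hζ.toInteger hΦ)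
  refine kummer_of_data hζ (by norm_num) (n := 5) (by norm_num)
    ![uz, u2, u4, u6, u8] ![1, 2, 4, 6, 8]
    (Fin.strictMono_iff_lt_succ.2 (by decide)) (by decide) (by decide) ?_ u hu
  intro j
  fin_cases j
  · exact ⟨1, 1, 0, by norm_num, by
      push_cast
      show (uz : 𝓞 K) - (1 + 1 * (hζ.toInteger - 1) ^ 1) = (hζ.toInteger - 1) ^ (1 + 1) * 0
      rw [huz]; ring⟩
  · exact ⟨2, 1, _, by norm_num, by
      have := cong_11_2 hζ.toInteger hΦ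
      push_cast
      exact this⟩
  · exact ⟨3, 4, _, by norm_num, by
      have := cong_11_4 hζ.toInteger hΦ
      push_cast
      exact this⟩
  · exact ⟨5, -1, _, by norm_num, by
      have := cong_11_6 hζ.toInteger hΦ
      push_cast
      exact this⟩
  · exact ⟨4, 1, _, by norm_num, by
      have := cong_11_8 hζ.toInteger hΦ
      push_cast
      exact this⟩


theorem kummer_13 {K : Type} [Field K] [NumberField K]
    [IsCyclotomicExtension {13} ℚ K] {ζ : K} (hζ : IsPrimitiveRoot ζ 13)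
    (u : (𝓞 K)ˣ) (hu : ∃ n : ℤ, ((13 : ℕ) : 𝓞 K) ∣ (u : 𝓞 K) - n) : ∃ w : (𝓞 K)ˣ, w ^ 13 = u := by
  have : Fact (Nat.Prime 13) := ⟨by norm_num⟩
  have hΦ : 1 + hζ.toInteger + hζ.toInteger^2 + hζ.toInteger^3 + hζ.toInteger^4 + hζ.toInteger^5 + hζ.toInteger^6 + hζ.toInteger^7 + hζ.toInteger^8 + hζ.toInteger^9 + hζ.toInteger^10 + hζ.toInteger^11 + hζ.toInteger^12 = 0 := by
    have := hζ.toInteger_isPrimitiveRoot.geom_sum_eq_zero (by norm_num)
    simpa [Finset.sum_range_succ] using this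
  let uz : (𝓞 K)ˣ := (hζ.toInteger_isPrimitiveRoot.isUnit (by norm_num)).unit
  have huz : (uz : 𝓞 K) = hζ.toInteger := IsUnit.unit_spec _
  let u2 : (𝓞 K)ˣ := Units.mkOfMulEqOne _ _ (inv_13_2 hζ.toInteger hΦ)
  let u4 : (𝓞 K)ˣ := Units.mkOfMulEqOne _ _ (inv_13_4 hζ.toInteger hΦ)
  let u6 : (𝓞 K)ˣ := Units.mkOfMulEqOne _ _ (inv_13_6 hζ.toInteger hΦ)
  let u8 : (𝓞 K)ˣ := Units.mkOfMulEqOne _ _ (inv_13_8 hζ.toInteger hΦ)
  let u10 : (𝓞 K)ˣ := Units.mkOfMulEqOne _ _ (inv_13_10 hζ.toInteger hΦ)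
  refine kummer_of_data hζ (by norm_num) (n := 6) (by norm_num)
    ![uz, u2, u4, u6, u8, u10] ![1, 2, 4, 6, 8, 10]
    (Fin.strictMono_iff_lt_succ.2 (by decide)) (by decide) (by decide) ?_ u hu
  intro j
  fin_cases j
  · exact ⟨1, 1, 0, by norm_num, by
      push_cast
      show (uz : 𝓞 K) - (1 + 1 * (hζ.toInteger - 1) ^ 1) = (hζ.toInteger - 1) ^ (1 + 1) * 0
      rw [huz]; ring⟩
  · exact ⟨2, 1, _, by norm_num, by
      have := cong_13_2 hζ.toInteger hΦ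
      push_cast
      exact this⟩
  · exact ⟨-1, 3, _, by norm_num, by
      have := cong_13_4 hζ.toInteger hΦ
      push_cast
      exact this⟩
  · exact ⟨-5, 4, _, by norm_num, by
      have := cong_13_6 hζ.toInteger hΦ
      push_cast
      exact this⟩
  · exact ⟨-4, 1, _, by norm_num, by
      have := cong_13_8 hζ.toInteger hΦ
      push_cast
      exact this⟩
  · exact ⟨1, 5, _, by norm_num, by
      have := cong_13_10 hζ.toInteger hΦ
      push_cast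
      exact this⟩


end Fermat.Agent.KummerFLT
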