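import Mathlib
import Fermat.Agent.KummerFLT.Basic

/-!
# Tools to prove that `ℤ[ζ_p]` is a PID
-/

set_option autoImplicit false

open NumberField IsCyclotomicExtension IsCyclotomicExtension.Rat Polynomial Ideal InfinitePlace

namespace Fermat.Agent.KummerFLT

variable {p : ℕ} [hp : Fact p.Prime] {K : Type} [Field K] [NumberField K]
  [IsCyclotomicExtension {p} ℚ K] {ζ : K} (hζ : IsPrimitiveRoot ζ p)

/-- every element is a polynomial in `ζ` -/
theorem exists_aeval (x : 𝓞 K) : ∃ F : ℤ[X], aeval hζ.toInteger F = x := by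
  refine ind_zeta hζ (P := fun x => ∃ F : ℤ[X], aeval hζ.toInteger F = x) ?_ ?_ ?_ ?_ x
  · intro n; exact ⟨C n, by simp⟩
  · exact ⟨X, by simp⟩
  · rintro x y ⟨F, hF⟩ ⟨G, hG⟩
    exact ⟨F + G, by simp [hF, hG]⟩
  · rintro x y ⟨F, hF⟩ ⟨G, hG⟩
    exact ⟨F * G, by simp [hF, hG]⟩

/-- A principal prime ideal above `q`, from a non unit element `α` dividing `q`
such that `ζ` satisfies a polynomial of degree `f` modulo `α`. -/
theorem principal_prime_over (q : ℕ) [hq : Fact q.Prime] (α : 𝓞 K) (f : ℕ) (g : ℤ[X])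
    (hg : g.Monic) (hgf : g.natDegree = f)
    (hf : ∀ P : Ideal (𝓞 K), P.IsPrime → P.LiesOver (span {(q:ℤ)}) → P.inertiaDeg ℤ = f)
    (hαu : ¬ IsUnit α) (hαq : α ∣ (q : 𝓞 K)) (hαg : α ∣ aeval hζ.toInteger g) :
    ∃ P ∈ primesOver (span {(q:ℤ)}) (𝓞 K), Submodule.IsPrincipal P := by
  classical
  have hqpos := hq.out.pos
  haveI : NeZero q := ⟨hqpos.ne'⟩
  obtain ⟨P, hPmax, hαP⟩ := exists_max_ideal_of_mem_nonunits (a := α) (mem_nonunits_iff.mpr hαu)
  have hPprime : P.IsPrime := hPmax.isPrime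
  have hqP : (q : 𝓞 K) ∈ P := by
    obtain ⟨b, hb⟩ := hαq
    rw [hb]; exact P.mul_mem_right _ hαP
  have hover : P.LiesOver (span {(q:ℤ)}) := by
    constructor
    have hmax : (span {(q:ℤ)}).IsMaximal :=
      PrincipalIdealRing.isMaximal_of_irreducible (Nat.prime_iff_prime_int.mp hq.out).irreducible
    apply hmax.eq_of_le
    · rw [Ideal.ne_top_iff_one]
      intro h1
      apply hPprime.ne_top
      rw [Ideal.eq_top_iff_one]
      simpa [Ideal.under, Ideal.mem_comap] using h1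
    · rw [Ideal.span_singleton_le_iff_mem]
      simpa [Ideal.under, Ideal.mem_comap] using hqP
  have hfP := hf P hPprime hover
  have hnorm : absNorm P = q ^ f := by
    have := natAbs_pow_inertiaDeg (q : ℤ) P
    rw [hfP] at this
    simpa using this.symm
  refine ⟨P, ⟨hPprime, hover⟩, ?_⟩
  -- the quotient by `α` has at most `q ^ f` elements
  have hgen : ∀ x : 𝓞 K, ∃ n : Fin f → Fin q,
      α ∣ x - ∑ i, ((n i : ℕ) : 𝓞 K) * hζ.toInteger ^ (i : ℕ) := by
    intro x
    obtain ⟨F, rfl⟩ := exists_aeval hζ x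
    have h1 := modByMonic_add_div F g
    set r := F %ₘ g with hr
    have hdeg : r.degree < f := by
      have := degree_modByMonic_lt F hg
      rwa [degree_eq_natDegree hg.ne_zero, hgf] at this
    have h2 : aeval hζ.toInteger r = ∑ i : Fin f, (r.coeff i : 𝓞 K) * hζ.toInteger ^ (i : ℕ) := by
      rw [aeval_eq_sum_range' (n := f)]
      · rw [Finset.sum_range]
        refine Finset.sum_congr rfl (fun i _ => ?_)
        rw [zsmul_eq_mul]
      · rcases Nat.eq_zero_or_pos f with h0 | h0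
        · exfalso
          rw [h0] at hdeg hgf
          have h3 : g = 1 := hg.natDegree_eq_zero.mp hgf
          rw [h3] at hαg
          simp only [map_one] at hαg
          exact hαu (isUnit_of_dvd_one hαg)
        · by_cases hr0 : r = 0
          · rw [hr0, natDegree_zero]; exact h0
          · exact (natDegree_lt_iff_degree_lt hr0).mpr hdeg
    refine ⟨fun i => ⟨(r.coeff i % q).toNat, ?_⟩, ?_⟩
    · have h3 := Int.emod_nonneg (r.coeff i) (b := (q : ℤ)) (by exact_mod_cast hqpos.ne')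
      have h4 := Int.emod_lt_of_pos (r.coeff i) (b := (q : ℤ)) (by exact_mod_cast hqpos)
      omega
    · have h5 : aeval hζ.toInteger F = aeval hζ.toInteger r
        + aeval hζ.toInteger g * aeval hζ.toInteger (F /ₘ g) := by
        rw [← map_mul, ← map_add, h1]
      have h6 : ∀ i : Fin f, α ∣ (r.coeff i : 𝓞 K) * hζ.toInteger ^ (i : ℕ)
          - ((((r.coeff i % q).toNat : ℕ)) : 𝓞 K) * hζ.toInteger ^ (i : ℕ) := by
        intro i
        rw [← sub_mul]
        refine Dvd.dvd.mul_right ?_ _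
        have h3 := Int.emod_nonneg (r.coeff i) (b := (q : ℤ)) (by exact_mod_cast hqpos.ne')
        have h7 : (((r.coeff i % q).toNat : ℕ) : 𝓞 K) = ((r.coeff i % q : ℤ) : 𝓞 K) := by
          rw [← Int.cast_natCast, Int.toNat_of_nonneg h3]
        rw [h7]
        have h8 : (r.coeff i : 𝓞 K) - ((r.coeff i % q : ℤ) : 𝓞 K)
            = (q : 𝓞 K) * ((r.coeff i / q : ℤ) : 𝓞 K) := by
          have h9 : r.coeff i - r.coeff i % q = q * (r.coeff i / q) := by
            have := Int.emod_add_mul_ediv (r.coeff i) q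
            linarith
          rw [← Int.cast_sub, h9]
          push_cast
          ring
        rw [h8]
        exact hαq.mul_right _
      rw [h5, h2]
      have h10 := dvd_add (Finset.dvd_sum (s := Finset.univ) (fun i _ => h6 i))
        (hαg.mul_right (aeval hζ.toInteger (F /ₘ g)))
      convert h10 using 1
      rw [Finset.sum_sub_distrib]
      ring
  let φ : (Fin f → Fin q) → 𝓞 K ⧸ span {α} := fun n =>
    Ideal.Quotient.mk _ (∑ i, ((n i : ℕ) : 𝓞 K) * hζ.toInteger ^ (i : ℕ))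
  have hφ : Function.Surjective φ := by
    intro x
    obtain ⟨x, rfl⟩ := Ideal.Quotient.mk_surjective x
    obtain ⟨n, hn⟩ := hgen x
    refine ⟨n, ?_⟩
    simp only [φ]
    rw [eq_comm, Ideal.Quotient.eq, mem_span_singleton]
    exact hn
  have hfin : Finite (𝓞 K ⧸ span {α}) := Finite.of_surjective φ hφ
  have hcard : Nat.card (𝓞 K ⧸ span {α}) ≤ q ^ f := by
    have h3 := Nat.card_le_card_of_surjective φ hφ
    have h4 : Nat.card (Fin f → Fin q) = q ^ f := by simp
    rwa [h4] at h3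
  have hle : span {α} ≤ P := (span_singleton_le_iff_mem P).mpr hαP
  have hbij : Function.Bijective (Ideal.Quotient.factor hle) := by
    apply Function.Surjective.bijective_of_nat_card_le (Ideal.Quotient.factor_surjective hle)
    rw [absNorm_apply, Submodule.cardQuot_apply] at hnorm
    rw [hnorm]
    exact hcard
  have hPle : P ≤ span {α} := by
    intro x hx
    have h1 : Ideal.Quotient.factor hle (Ideal.Quotient.mk _ x) = Ideal.Quotient.factor hle 0 := by
      rw [map_zero, Ideal.Quotient.factor_mk]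
      exact Ideal.Quotient.eq_zero_iff_mem.mpr hx
    have h2 := hbij.1 h1
    exact Ideal.Quotient.eq_zero_iff_mem.mp h2
  exact ⟨⟨α, le_antisymm hPle hle⟩⟩

/-- the bound criterion -/
theorem pid_of_bound (B : ℕ)
    (hB : ((4 / Real.pi) ^ nrComplexPlaces K *
      (((Module.finrank ℚ K).factorial : ℝ) / ((Module.finrank ℚ K : ℕ) : ℝ) ^ (Module.finrank ℚ K)
        * √|((NumberField.discr K : ℤ) : ℝ)|)) < B + 1)
    (h : ∀ q : ℕ, q ≤ B → q.Prime → q ≠ p →
      (∃ P ∈ primesOver (span {(q:ℤ)}) (𝓞 K), Submodule.IsPrincipal P) ∨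
      B < q ^ (orderOf (q : ZMod p))) :
    IsPrincipalIdealRing (𝓞 K) := by
  have hgal : IsGalois ℚ K := IsCyclotomicExtension.isGalois {p} ℚ K
  haveI : NeZero p := ⟨hp.out.ne_zero⟩
  apply RingOfIntegers.isPrincipalIdealRing_of_isPrincipal_of_lt_or_isPrincipal_of_mem_primesOver_of_mem_Icc
  set M := ⌊(4 / Real.pi) ^ nrComplexPlaces K *
      (((Module.finrank ℚ K).factorial : ℝ) / ((Module.finrank ℚ K : ℕ) : ℝ) ^ (Module.finrank ℚ K)
        * √|((NumberField.discr K : ℤ) : ℝ)|)⌋₊ with hM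
  have hMB : M ≤ B := by
    rw [hM]
    apply Nat.lt_succ_iff.mp
    rw [Nat.floor_lt (by positivity)]
    push_cast
    exact hB
  intro q hq hqp
  have hqB : q ≤ B := (Finset.mem_Icc.mp hq).2.trans hMB
  haveI : Fact q.Prime := ⟨hqp⟩
  by_cases hqp' : q = p
  · subst hqp'
    have hζ := IsCyclotomicExtension.zeta_spec q ℚ K
    have hpr : (span {(q:ℤ)}).IsPrime := by
      rw [Ideal.span_singleton_prime (by exact_mod_cast hqp.ne_zero)]
      exact Nat.prime_iff_prime_int.mp hqp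
    obtain ⟨⟨P, hP1, hP2⟩⟩ := (span {(q:ℤ)}).nonempty_primesOver (S := 𝓞 K)
    refine ⟨P, ⟨hP1, hP2⟩, Or.inr ?_⟩
    rw [eq_span_zeta_sub_one_of_liesOver' q K hζ P]
    exact ⟨⟨_, rfl⟩⟩
  · rcases h q hqB hqp hqp' with h1 | h1
    · obtain ⟨P, hP, hP'⟩ := h1
      exact ⟨P, hP, Or.inr hP'⟩
    · have hpr : (span {(q:ℤ)}).IsPrime := by
        rw [Ideal.span_singleton_prime (by exact_mod_cast hqp.ne_zero)]
        exact Nat.prime_iff_prime_int.mp hqp
      obtain ⟨⟨P, hP1, hP2⟩⟩ := (span {(q:ℤ)}).nonempty_primesOver (S := 𝓞 K)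
      refine ⟨P, ⟨hP1, hP2⟩, Or.inl ?_⟩
      have hnd : ¬ q ∣ p := by
        intro hd
        exact hqp' ((Nat.prime_dvd_prime_iff_eq hqp hp.out).mp hd)
      rw [inertiaDeg_eq_of_not_dvd q K P hnd]
      exact hMB.trans_lt h1

/-- the inertia degree of every prime over `q`. -/
theorem inertiaDeg_eq_orderOf (q : ℕ) [hq : Fact q.Prime] (hqp : q ≠ p) (P : Ideal (𝓞 K))
    (hP : P.IsPrime) (hP' : P.LiesOver (span {(q:ℤ)})) : P.inertiaDeg ℤ = orderOf (q : ZMod p) := by
  haveI : NeZero p := ⟨hp.out.ne_zero⟩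
  have hnd : ¬ q ∣ p := by
    intro hd
    exact hqp ((Nat.prime_dvd_prime_iff_eq hq.out hp.out).mp hd)
  exact inertiaDeg_eq_of_not_dvd q K P hnd

/-- a criterion to be a non unit -/
theorem not_isUnit_of_mul_eq {α β : 𝓞 K} {q : ℤ} (h : α * β = q) {c : ℕ → ℤ}
    (hβ : β = ∑ i ∈ Finset.range (p - 1), (c i : 𝓞 K) * hζ.toInteger ^ i) {i : ℕ} (hi : i < p - 1)
    (hc : ¬ q ∣ c i) : ¬ IsUnit α := by
  rintro ⟨u, hu⟩
  apply hc
  apply dvd_coeff hζ (m := q) (c := c) _ hi
  rw [← hβ]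
  refine ⟨(↑u⁻¹ : 𝓞 K), ?_⟩
  have : (↑u⁻¹ : 𝓞 K) * u = 1 := by simp
  rw [← hu] at h
  rw [← h]
  linear_combination (-β) * this

end Fermat.Agent.KummerFLT
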