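import Mathlib
import Fermat.Agent.KummerFLT.PIDBasic

/-!
# `ℤ[ζ_p]` is a PID for `p = 7, 11, 13`
-/

set_option autoImplicit false

open NumberField IsCyclotomicExtension IsCyclotomicExtension.Rat InfinitePlace Polynomial Ideal

namespace Fermat.Agent.KummerFLT

theorem zdec_11_23 : (((23 : ℕ) : ZMod 11)) = 1 := by decide
theorem zdec_13_53 : (((53 : ℕ) : ZMod 13)) = 1 := by decide
theorem zdec_13_79 : (((79 : ℕ) : ZMod 13)) = 1 := by decide
theorem zdec_13_131 : (((131 : ℕ) : ZMod 13)) = 1 := by decide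
theorem zdec_13_157 : (((157 : ℕ) : ZMod 13)) = 1 := by decide
theorem zdec_13_3a : (((3 : ℕ) : ZMod 13)) ^ 3 = 1 := by decide
theorem zdec_13_3b : (((3 : ℕ) : ZMod 13)) ≠ 1 := by decide
theorem zord_7_2 : ∀ k < 3, 0 < k → (((2 : ℕ) : ZMod 7)) ^ k ≠ 1 := by decide
theorem zord_7_3 : ∀ k < 3, 0 < k → (((3 : ℕ) : ZMod 7)) ^ k ≠ 1 := by decide
theorem zord_11_2 : ∀ k < 10, 0 < k → (((2 : ℕ) : ZMod 11)) ^ k ≠ 1 := by decide
theorem zord_11_3 : ∀ k < 5, 0 < k → (((3 : ℕ) : ZMod 11)) ^ k ≠ 1 := by decide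
theorem zord_11_5 : ∀ k < 5, 0 < k → (((5 : ℕ) : ZMod 11)) ^ k ≠ 1 := by decide
theorem zord_11_7 : ∀ k < 10, 0 < k → (((7 : ℕ) : ZMod 11)) ^ k ≠ 1 := by decide
theorem zord_13_2 : ∀ k < 12, 0 < k → (((2 : ℕ) : ZMod 13)) ^ k ≠ 1 := by decide
theorem zord_13_5 : ∀ k < 4, 0 < k → (((5 : ℕ) : ZMod 13)) ^ k ≠ 1 := by decide
theorem zord_13_7 : ∀ k < 12, 0 < k → (((7 : ℕ) : ZMod 13)) ^ k ≠ 1 := by decide
theorem zord_13_11 : ∀ k < 12, 0 < k → (((11 : ℕ) : ZMod 13)) ^ k ≠ 1 := by decide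
theorem zord_13_17 : ∀ k < 6, 0 < k → (((17 : ℕ) : ZMod 13)) ^ k ≠ 1 := by decide

theorem le_orderOf_zmod {p : ℕ} [hp : Fact p.Prime] {q : ℕ} (hq : q.Prime) (hqp : q ≠ p) (m : ℕ)
    (h : ∀ k < m, 0 < k → (q : ZMod p) ^ k ≠ 1) : m ≤ orderOf (q : ZMod p) := by
  by_contra hcon
  push Not at hcon
  have hq0 : (q : ZMod p) ≠ 0 := by
    intro h0
    rw [ZMod.natCast_eq_zero_iff] at h0
    exact hqp ((Nat.prime_dvd_prime_iff_eq hp.out hq).mp h0).symm
  have hfin : IsOfFinOrder (q : ZMod p) := by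
    rw [isOfFinOrder_iff_pow_eq_one]
    exact ⟨p - 1, by have := hp.out.two_le; omega, ZMod.pow_card_sub_one_eq_one hq0⟩
  exact h _ hcon hfin.orderOf_pos (pow_orderOf_eq_one _)

theorem lt_pow_orderOf {p : ℕ} [hp : Fact p.Prime] {q : ℕ} (hq : q.Prime) (hqp : q ≠ p) (B m : ℕ)
    (hB : B < q ^ m) (h : ∀ k < m, 0 < k → (q : ZMod p) ^ k ≠ 1) :
    B < q ^ orderOf (q : ZMod p) :=
  hB.trans_le (Nat.pow_le_pow_right hq.pos (le_orderOf_zmod hq hqp m h))

theorem minkowski_bound {p : ℕ} [hp : Fact p.Prime] (K : Type) [Field K] [NumberField K]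
    [IsCyclotomicExtension {p} ℚ K] (B : ℕ) (r : ℝ) (hr0 : 0 ≤ r)
    (hr : (p : ℝ) ^ (p - 2) ≤ r ^ 2)
    (hB : (4 / (3.14 : ℝ)) ^ ((p - 1) / 2) * (((p - 1).factorial : ℝ) / ((p - 1 : ℕ) : ℝ) ^ (p - 1)
      * r) < B + 1) :
    ((4 / Real.pi) ^ nrComplexPlaces K *
      (((Module.finrank ℚ K).factorial : ℝ) / ((Module.finrank ℚ K : ℕ) : ℝ) ^ (Module.finrank ℚ K)
        * √|((NumberField.discr K : ℤ) : ℝ)|)) < B + 1 := by
  haveI : NeZero p := ⟨hp.out.ne_zero⟩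
  rw [nrComplexPlaces_eq_totient_div_two (h := inferInstance) p,
    IsCyclotomicExtension.finrank (n := p) K (Polynomial.cyclotomic.irreducible_rat hp.out.pos),
    discr_prime p K, Nat.totient_prime hp.out]
  refine lt_of_le_of_lt ?_ hB
  have h1 : √|(((-1) ^ ((p - 1) / 2) * (p : ℤ) ^ (p - 2) : ℤ) : ℝ)| ≤ r := by
    push_cast
    rw [abs_mul, abs_pow, abs_neg, abs_one, one_pow, one_mul, abs_of_nonneg (by positivity)]
    exact Real.sqrt_le_iff.mpr ⟨hr0, hr⟩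
  have h2 : (4 / Real.pi) ≤ 4 / 3.14 := by
    have := Real.pi_gt_d2
    gcongr
  have h3 : (0:ℝ) ≤ 4 / Real.pi := by positivity
  gcongr


theorem nrm_11_23 {R : Type*} [CommRing R] (z : R) (h : 1 + z + z^2 + z^3 + z^4 + z^5 + z^6 + z^7 + z^8 + z^9 + z^10 = 0) :
    (1 + z + z^3) *
      (-2 - 14*z - 17*z^2 - 12*z^3 - 5*z^4 - 9*z^5 - 10*z^6 - 16*z^7 - 6*z^8 - 15*z^9) = 23 := by
  linear_combination (-25 + 9*z - 15*z^2) * h

theorem gen_11_23 {R : Type*} [CommRing R] (z : R) (h : 1 + z + z^2 + z^3 + z^4 + z^5 + z^6 + z^7 + z^8 + z^9 + z^10 = 0) :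
    (z - (4)) = (1 + z + z^3) * (1 + 3*z + 3*z^2 + 2*z^3 + z^4 + 2*z^5 + 2*z^6 + 3*z^7 + z^8 + 3*z^9) := by
  linear_combination (-(5 - 2*z + 3*z^2)) * h


theorem prin_11_23 {K : Type} [Field K] [NumberField K]
    [IsCyclotomicExtension {11} ℚ K] {ζ : K} (hζ : IsPrimitiveRoot ζ 11) :
    ∃ P ∈ primesOver (span {((23 : ℕ) : ℤ)}) (𝓞 K), Submodule.IsPrincipal P := by
  have : Fact (Nat.Prime 11) := ⟨by norm_num⟩
  have : Fact (Nat.Prime 23) := ⟨by norm_num⟩
  have hΦ : 1 + hζ.toInteger + hζ.toInteger^2 + hζ.toInteger^3 + hζ.toInteger^4 + hζ.toInteger^5 + hζ.toInteger^6 + hζ.toInteger^7 + hζ.toInteger^8 + hζ.toInteger^9 + hζ.toInteger^10 = 0 := by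
    have := hζ.toInteger_isPrimitiveRoot.geom_sum_eq_zero (by norm_num)
    simpa [Finset.sum_range_succ] using this
  have hmul := nrm_11_23 hζ.toInteger hΦ
  refine principal_prime_over hζ 23 (1 + hζ.toInteger + hζ.toInteger^3) 1 (X - C (4)) (monic_X_sub_C _) (natDegree_X_sub_C _) ?_ ?_ ?_ ?_
  · intro P hP1 hP2
    rw [inertiaDeg_eq_orderOf (p := 11) 23 (by norm_num) P hP1 hP2]
    have h1 : (((23 : ℕ) : ZMod 11)) = 1 := zdec_11_23
    rw [h1, orderOf_one]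
  · refine not_isUnit_of_mul_eq hζ (q := (23 : ℤ)) (by push_cast; exact hmul)
      (c := fun i => ([-2, -14, -17, -12, -5, -9, -10, -16, -6, -15] : List ℤ).getD i 0) ?_ (i := 0) (by norm_num) (by norm_num)
    simp [Finset.sum_range_succ]
    try ring
  · exact ⟨_, by push_cast; exact hmul.symm⟩
  · exact ⟨1 + 3*hζ.toInteger + 3*hζ.toInteger^2 + 2*hζ.toInteger^3 + hζ.toInteger^4 + 2*hζ.toInteger^5 + 2*hζ.toInteger^6 + 3*hζ.toInteger^7 + hζ.toInteger^8 + 3*hζ.toInteger^9, by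
      have := gen_11_23 hζ.toInteger hΦ
      rw [map_sub, aeval_X, aeval_C, algebraMap_int_eq, eq_intCast]
      push_cast
      linear_combination this⟩


theorem nrm_13_53 {R : Type*} [CommRing R] (z : R) (h : 1 + z + z^2 + z^3 + z^4 + z^5 + z^6 + z^7 + z^8 + z^9 + z^10 + z^11 + z^12 = 0) :
    (1 + z + z^3) *
      (1 - 24*z - 35*z^2 - 25*z^3 - 10*z^4 - 14*z^5 - 20*z^6 - 29*z^7 - 16*z^8 - 23*z^9 - 7*z^10 - 36*z^11) = 53 := by
  linear_combination (-52 + 29*z - 36*z^2) * h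

theorem gen_13_53 {R : Type*} [CommRing R] (z : R) (h : 1 + z + z^2 + z^3 + z^4 + z^5 + z^6 + z^7 + z^8 + z^9 + z^10 + z^11 + z^12 = 0) :
    (z - (-17)) = (1 + z + z^3) * (1 - 7*z - 11*z^2 - 8*z^3 - 3*z^4 - 4*z^5 - 6*z^6 - 9*z^7 - 5*z^8 - 7*z^9 - 2*z^10 - 11*z^11) := by
  linear_combination (-(-16 + 9*z - 11*z^2)) * h


theorem prin_13_53 {K : Type} [Field K] [NumberField K]
    [IsCyclotomicExtension {13} ℚ K] {ζ : K} (hζ : IsPrimitiveRoot ζ 13) :
    ∃ P ∈ primesOver (span {((53 : ℕ) : ℤ)}) (𝓞 K), Submodule.IsPrincipal P := by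
  have : Fact (Nat.Prime 13) := ⟨by norm_num⟩
  have : Fact (Nat.Prime 53) := ⟨by norm_num⟩
  have hΦ : 1 + hζ.toInteger + hζ.toInteger^2 + hζ.toInteger^3 + hζ.toInteger^4 + hζ.toInteger^5 + hζ.toInteger^6 + hζ.toInteger^7 + hζ.toInteger^8 + hζ.toInteger^9 + hζ.toInteger^10 + hζ.toInteger^11 + hζ.toInteger^12 = 0 := by
    have := hζ.toInteger_isPrimitiveRoot.geom_sum_eq_zero (by norm_num)
    simpa [Finset.sum_range_succ] using this
  have hmul := nrm_13_53 hζ.toInteger hΦ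
  refine principal_prime_over hζ 53 (1 + hζ.toInteger + hζ.toInteger^3) 1 (X - C (-17)) (monic_X_sub_C _) (natDegree_X_sub_C _) ?_ ?_ ?_ ?_
  · intro P hP1 hP2
    rw [inertiaDeg_eq_orderOf (p := 13) 53 (by norm_num) P hP1 hP2]
    have h1 : (((53 : ℕ) : ZMod 13)) = 1 := zdec_13_53
    rw [h1, orderOf_one]
  · refine not_isUnit_of_mul_eq hζ (q := (53 : ℤ)) (by push_cast; exact hmul)
      (c := fun i => ([1, -24, -35, -25, -10, -14, -20, -29, -16, -23, -7, -36] : List ℤ).getD i 0) ?_ (i := 0) (by norm_num) (by norm_num)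
    simp [Finset.sum_range_succ]
    try ring
  · exact ⟨_, by push_cast; exact hmul.symm⟩
  · exact ⟨1 - 7*hζ.toInteger - 11*hζ.toInteger^2 - 8*hζ.toInteger^3 - 3*hζ.toInteger^4 - 4*hζ.toInteger^5 - 6*hζ.toInteger^6 - 9*hζ.toInteger^7 - 5*hζ.toInteger^8 - 7*hζ.toInteger^9 - 2*hζ.toInteger^10 - 11*hζ.toInteger^11, by
      have := gen_13_53 hζ.toInteger hΦ
      rw [map_sub, aeval_X, aeval_C, algebraMap_int_eq, eq_intCast]
      push_cast
      linear_combination this⟩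


theorem nrm_13_79 {R : Type*} [CommRing R] (z : R) (h : 1 + z + z^2 + z^3 + z^4 + z^5 + z^6 + z^7 + z^8 + z^9 + z^10 + z^11 + z^12 = 0) :
    (1 + z - z^4) *
      (24 - 25*z - 27*z^2 + 10*z^3 - 3*z^4 - 39*z^5 - 5*z^6 - 2*z^7 - 18*z^8 - 38*z^9 + 16*z^10 - 35*z^11) = 79 := by
  linear_combination (-55 + 54*z - 51*z^2 + 35*z^3) * h

theorem gen_13_79 {R : Type*} [CommRing R] (z : R) (h : 1 + z + z^2 + z^3 + z^4 + z^5 + z^6 + z^7 + z^8 + z^9 + z^10 + z^11 + z^12 = 0) :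
    (z - (-15)) = (1 + z - z^4) * (5 - 4*z - 5*z^2 + 2*z^3 - 7*z^5 - z^6 - 3*z^8 - 7*z^9 + 3*z^10 - 6*z^11) := by
  linear_combination (-(-10 + 10*z - 9*z^2 + 6*z^3)) * h


theorem prin_13_79 {K : Type} [Field K] [NumberField K]
    [IsCyclotomicExtension {13} ℚ K] {ζ : K} (hζ : IsPrimitiveRoot ζ 13) :
    ∃ P ∈ primesOver (span {((79 : ℕ) : ℤ)}) (𝓞 K), Submodule.IsPrincipal P := by
  have : Fact (Nat.Prime 13) := ⟨by norm_num⟩
  have : Fact (Nat.Prime 79) := ⟨by norm_num⟩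
  have hΦ : 1 + hζ.toInteger + hζ.toInteger^2 + hζ.toInteger^3 + hζ.toInteger^4 + hζ.toInteger^5 + hζ.toInteger^6 + hζ.toInteger^7 + hζ.toInteger^8 + hζ.toInteger^9 + hζ.toInteger^10 + hζ.toInteger^11 + hζ.toInteger^12 = 0 := by
    have := hζ.toInteger_isPrimitiveRoot.geom_sum_eq_zero (by norm_num)
    simpa [Finset.sum_range_succ] using this
  have hmul := nrm_13_79 hζ.toInteger hΦ
  refine principal_prime_over hζ 79 (1 + hζ.toInteger - hζ.toInteger^4) 1 (X - C (-15)) (monic_X_sub_C _) (natDegree_X_sub_C _) ?_ ?_ ?_ ?_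
  · intro P hP1 hP2
    rw [inertiaDeg_eq_orderOf (p := 13) 79 (by norm_num) P hP1 hP2]
    have h1 : (((79 : ℕ) : ZMod 13)) = 1 := zdec_13_79
    rw [h1, orderOf_one]
  · refine not_isUnit_of_mul_eq hζ (q := (79 : ℤ)) (by push_cast; exact hmul)
      (c := fun i => ([24, -25, -27, 10, -3, -39, -5, -2, -18, -38, 16, -35] : List ℤ).getD i 0) ?_ (i := 0) (by norm_num) (by norm_num)
    simp [Finset.sum_range_succ]
    try ring
  · exact ⟨_, by push_cast; exact hmul.symm⟩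
  · exact ⟨5 - 4*hζ.toInteger - 5*hζ.toInteger^2 + 2*hζ.toInteger^3 - 7*hζ.toInteger^5 - hζ.toInteger^6 - 3*hζ.toInteger^8 - 7*hζ.toInteger^9 + 3*hζ.toInteger^10 - 6*hζ.toInteger^11, by
      have := gen_13_79 hζ.toInteger hΦ
      rw [map_sub, aeval_X, aeval_C, algebraMap_int_eq, eq_intCast]
      push_cast
      linear_combination this⟩


theorem nrm_13_131 {R : Type*} [CommRing R] (z : R) (h : 1 + z + z^2 + z^3 + z^4 + z^5 + z^6 + z^7 + z^8 + z^9 + z^10 + z^11 + z^12 = 0) :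
    (1 - z - z^3) *
      (111 + 78*z + 17*z^2 + 67*z^3 + 84*z^4 + 40*z^5 + 46*z^6 + 69*z^7 + 48*z^8 + 33*z^9 + 41*z^10 + 28*z^11) = 131 := by
  linear_combination (-20 - 13*z - 28*z^2) * h

theorem gen_13_131 {R : Type*} [CommRing R] (z : R) (h : 1 + z + z^2 + z^3 + z^4 + z^5 + z^6 + z^7 + z^8 + z^9 + z^10 + z^11 + z^12 = 0) :
    (z - (-51)) = (1 - z - z^3) * (43 + 31*z + 7*z^2 + 26*z^3 + 33*z^4 + 16*z^5 + 18*z^6 + 27*z^7 + 19*z^8 + 13*z^9 + 16*z^10 + 11*z^11) := by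
  linear_combination (-(-8 - 5*z - 11*z^2)) * h


theorem prin_13_131 {K : Type} [Field K] [NumberField K]
    [IsCyclotomicExtension {13} ℚ K] {ζ : K} (hζ : IsPrimitiveRoot ζ 13) :
    ∃ P ∈ primesOver (span {((131 : ℕ) : ℤ)}) (𝓞 K), Submodule.IsPrincipal P := by
  have : Fact (Nat.Prime 13) := ⟨by norm_num⟩
  have : Fact (Nat.Prime 131) := ⟨by norm_num⟩
  have hΦ : 1 + hζ.toInteger + hζ.toInteger^2 + hζ.toInteger^3 + hζ.toInteger^4 + hζ.toInteger^5 + hζ.toInteger^6 + hζ.toInteger^7 + hζ.toInteger^8 + hζ.toInteger^9 + hζ.toInteger^10 + hζ.toInteger^11 + hζ.toInteger^12 = 0 := by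
    have := hζ.toInteger_isPrimitiveRoot.geom_sum_eq_zero (by norm_num)
    simpa [Finset.sum_range_succ] using this
  have hmul := nrm_13_131 hζ.toInteger hΦ
  refine principal_prime_over hζ 131 (1 - hζ.toInteger - hζ.toInteger^3) 1 (X - C (-51)) (monic_X_sub_C _) (natDegree_X_sub_C _) ?_ ?_ ?_ ?_
  · intro P hP1 hP2
    rw [inertiaDeg_eq_orderOf (p := 13) 131 (by norm_num) P hP1 hP2]
    have h1 : (((131 : ℕ) : ZMod 13)) = 1 := zdec_13_131
    rw [h1, orderOf_one]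
  · refine not_isUnit_of_mul_eq hζ (q := (131 : ℤ)) (by push_cast; exact hmul)
      (c := fun i => ([111, 78, 17, 67, 84, 40, 46, 69, 48, 33, 41, 28] : List ℤ).getD i 0) ?_ (i := 0) (by norm_num) (by norm_num)
    simp [Finset.sum_range_succ]
    try ring
  · exact ⟨_, by push_cast; exact hmul.symm⟩
  · exact ⟨43 + 31*hζ.toInteger + 7*hζ.toInteger^2 + 26*hζ.toInteger^3 + 33*hζ.toInteger^4 + 16*hζ.toInteger^5 + 18*hζ.toInteger^6 + 27*hζ.toInteger^7 + 19*hζ.toInteger^8 + 13*hζ.toInteger^9 + 16*hζ.toInteger^10 + 11*hζ.toInteger^11, by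
      have := gen_13_131 hζ.toInteger hΦ
      rw [map_sub, aeval_X, aeval_C, algebraMap_int_eq, eq_intCast]
      push_cast
      linear_combination this⟩


theorem nrm_13_157 {R : Type*} [CommRing R] (z : R) (h : 1 + z + z^2 + z^3 + z^4 + z^5 + z^6 + z^7 + z^8 + z^9 + z^10 + z^11 + z^12 = 0) :
    (1 - z + z^2 + z^4) *
      (89 + 86*z + 42*z^2 + 77*z^3 + 67*z^4 + 25*z^5 + 37*z^6 + 56*z^7 + 73*z^8 + 113*z^9 + 124*z^10 + 76*z^11) = 157 := by
  linear_combination (-68 + 65*z + 48*z^2 + 76*z^3) * h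

theorem gen_13_157 {R : Type*} [CommRing R] (z : R) (h : 1 + z + z^2 + z^3 + z^4 + z^5 + z^6 + z^7 + z^8 + z^9 + z^10 + z^11 + z^12 = 0) :
    (z - (75)) = (1 - z + z^2 + z^4) * (-43 - 41*z - 20*z^2 - 37*z^3 - 32*z^4 - 12*z^5 - 18*z^6 - 27*z^7 - 35*z^8 - 54*z^9 - 59*z^10 - 36*z^11) := by
  linear_combination (-(32 - 31*z - 23*z^2 - 36*z^3)) * h


theorem prin_13_157 {K : Type} [Field K] [NumberField K]
    [IsCyclotomicExtension {13} ℚ K] {ζ : K} (hζ : IsPrimitiveRoot ζ 13) :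
    ∃ P ∈ primesOver (span {((157 : ℕ) : ℤ)}) (𝓞 K), Submodule.IsPrincipal P := by
  have : Fact (Nat.Prime 13) := ⟨by norm_num⟩
  have : Fact (Nat.Prime 157) := ⟨by norm_num⟩
  have hΦ : 1 + hζ.toInteger + hζ.toInteger^2 + hζ.toInteger^3 + hζ.toInteger^4 + hζ.toInteger^5 + hζ.toInteger^6 + hζ.toInteger^7 + hζ.toInteger^8 + hζ.toInteger^9 + hζ.toInteger^10 + hζ.toInteger^11 + hζ.toInteger^12 = 0 := by
    have := hζ.toInteger_isPrimitiveRoot.geom_sum_eq_zero (by norm_num)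
    simpa [Finset.sum_range_succ] using this
  have hmul := nrm_13_157 hζ.toInteger hΦ
  refine principal_prime_over hζ 157 (1 - hζ.toInteger + hζ.toInteger^2 + hζ.toInteger^4) 1 (X - C (75)) (monic_X_sub_C _) (natDegree_X_sub_C _) ?_ ?_ ?_ ?_
  · intro P hP1 hP2
    rw [inertiaDeg_eq_orderOf (p := 13) 157 (by norm_num) P hP1 hP2]
    have h1 : (((157 : ℕ) : ZMod 13)) = 1 := zdec_13_157
    rw [h1, orderOf_one]
  · refine not_isUnit_of_mul_eq hζ (q := (157 : ℤ)) (by push_cast; exact hmul)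
      (c := fun i => ([89, 86, 42, 77, 67, 25, 37, 56, 73, 113, 124, 76] : List ℤ).getD i 0) ?_ (i := 0) (by norm_num) (by norm_num)
    simp [Finset.sum_range_succ]
    try ring
  · exact ⟨_, by push_cast; exact hmul.symm⟩
  · exact ⟨-43 - 41*hζ.toInteger - 20*hζ.toInteger^2 - 37*hζ.toInteger^3 - 32*hζ.toInteger^4 - 12*hζ.toInteger^5 - 18*hζ.toInteger^6 - 27*hζ.toInteger^7 - 35*hζ.toInteger^8 - 54*hζ.toInteger^9 - 59*hζ.toInteger^10 - 36*hζ.toInteger^11, by
      have := gen_13_157 hζ.toInteger hΦ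
      rw [map_sub, aeval_X, aeval_C, algebraMap_int_eq, eq_intCast]
      push_cast
      linear_combination this⟩


theorem nrm_13_3 {R : Type*} [CommRing R] (z : R) (h : 1 + z + z^2 + z^3 + z^4 + z^5 + z^6 + z^7 + z^8 + z^9 + z^10 + z^11 + z^12 = 0) :
    (1 + z - z^3) *
      (-1 - z^2 - z^3 - 2*z^5 - z^7 - 2*z^8 + z^9 - 3*z^10) = 3 := by
  linear_combination (-4 + 3*z) * h

theorem gen_13_3 {R : Type*} [CommRing R] (z : R) (h : 1 + z + z^2 + z^3 + z^4 + z^5 + z^6 + z^7 + z^8 + z^9 + z^10 + z^11 + z^12 = 0) :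
    (z^3 - z - 1) = (1 + z - z^3) * (-1) := by
  linear_combination (-(0)) * h


theorem prin_13_3 {K : Type} [Field K] [NumberField K]
    [IsCyclotomicExtension {13} ℚ K] {ζ : K} (hζ : IsPrimitiveRoot ζ 13) :
    ∃ P ∈ primesOver (span {((3 : ℕ) : ℤ)}) (𝓞 K), Submodule.IsPrincipal P := by
  have : Fact (Nat.Prime 13) := ⟨by norm_num⟩
  have : Fact (Nat.Prime 3) := ⟨by norm_num⟩
  have hΦ : 1 + hζ.toInteger + hζ.toInteger^2 + hζ.toInteger^3 + hζ.toInteger^4 + hζ.toInteger^5 + hζ.toInteger^6 + hζ.toInteger^7 + hζ.toInteger^8 + hζ.toInteger^9 + hζ.toInteger^10 + hζ.toInteger^11 + hζ.toInteger^12 = 0 := by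
    have := hζ.toInteger_isPrimitiveRoot.geom_sum_eq_zero (by norm_num)
    simpa [Finset.sum_range_succ] using this
  have hmul := nrm_13_3 hζ.toInteger hΦ
  refine principal_prime_over hζ 3 (1 + hζ.toInteger - hζ.toInteger^3) 3 (X ^ 3 - X - 1) (by monicity!) (by compute_degree!) ?_ ?_ ?_ ?_
  · intro P hP1 hP2
    rw [inertiaDeg_eq_orderOf (p := 13) 3 (by norm_num) P hP1 hP2]
    exact orderOf_eq_prime zdec_13_3a zdec_13_3b
  · refine not_isUnit_of_mul_eq hζ (q := (3 : ℤ)) (by push_cast; exact hmul)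
      (c := fun i => ([-1, 0, -1, -1, 0, -2, 0, -1, -2, 1, -3, 0] : List ℤ).getD i 0) ?_ (i := 0) (by norm_num) (by norm_num)
    simp [Finset.sum_range_succ]
    try ring
  · exact ⟨_, by push_cast; exact hmul.symm⟩
  · exact ⟨-1, by
      have := gen_13_3 hζ.toInteger hΦ
      simp only [map_sub, map_pow, aeval_X, map_one]
      linear_combination this⟩


theorem pid_7 {K : Type} [Field K] [NumberField K]
    [IsCyclotomicExtension {7} ℚ K] : IsPrincipalIdealRing (𝓞 K) := by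
  have : Fact (Nat.Prime 7) := ⟨by norm_num⟩
  refine pid_of_bound (p := 7) 4 (minkowski_bound (p := 7) K 4 130 (by norm_num) (by norm_num)
    (by norm_num [Nat.factorial])) ?_
  intro q hq hqp hq7
  right
  interval_cases q
  · exact absurd hqp (by norm_num)
  · exact absurd hqp (by norm_num)
  · exact lt_pow_orderOf hqp hq7 4 3 (by norm_num) zord_7_2
  · exact lt_pow_orderOf hqp hq7 4 3 (by norm_num) zord_7_3
  · exact absurd hqp (by norm_num)

theorem pid_11 {K : Type} [Field K] [NumberField K]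
    [IsCyclotomicExtension {11} ℚ K] : IsPrincipalIdealRing (𝓞 K) := by
  have : Fact (Nat.Prime 11) := ⟨by norm_num⟩
  have hζ := IsCyclotomicExtension.zeta_spec 11 ℚ K
  refine pid_of_bound (p := 11) 59 (minkowski_bound (p := 11) K 59 48559 (by norm_num) (by norm_num)
    (by norm_num [Nat.factorial])) ?_
  intro q hq hqp hq11
  by_cases h1 : q % 11 = 1
  · left
    obtain ⟨k, hk⟩ : ∃ k, q = 11 * k + 1 := ⟨q / 11, by omega⟩
    have hk' : k ≤ 5 := by omega
    subst hk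
    interval_cases k
    all_goals first
      | (exfalso; norm_num at hqp; done)
      | exact prin_11_23 hζ
  · right
    have hz : (q : ZMod 11) ≠ 1 := by
      intro h2
      apply h1
      have h3 : ((q : ℕ) : ZMod 11) = ((1 : ℕ) : ZMod 11) := by rw [h2]; norm_num
      rw [ZMod.natCast_eq_natCast_iff'] at h3
      simpa using h3
    by_cases h2 : q < 8
    · interval_cases q
      all_goals first
        | (exfalso; norm_num at hqp; done)
        | exact lt_pow_orderOf hqp hq11 59 10 (by norm_num) zord_11_2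
        | exact lt_pow_orderOf hqp hq11 59 5 (by norm_num) zord_11_3
        | exact lt_pow_orderOf hqp hq11 59 5 (by norm_num) zord_11_5
        | exact lt_pow_orderOf hqp hq11 59 10 (by norm_num) zord_11_7
    · refine lt_pow_orderOf hqp hq11 59 2 (by nlinarith) ?_
      intro k hk hk0
      have : k = 1 := by omega
      rw [this, pow_one]
      exact hz

theorem pid_13 {K : Type} [Field K] [NumberField K]
    [IsCyclotomicExtension {13} ℚ K] : IsPrincipalIdealRing (𝓞 K) := by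
  have : Fact (Nat.Prime 13) := ⟨by norm_num⟩
  have hζ := IsCyclotomicExtension.zeta_spec 13 ℚ K
  refine pid_of_bound (p := 13) 312 (minkowski_bound (p := 13) K 312 1338717 (by norm_num)
    (by norm_num) (by norm_num [Nat.factorial])) ?_
  intro q hq hqp hq13
  by_cases h1 : q % 13 = 1
  · left
    obtain ⟨k, hk⟩ : ∃ k, q = 13 * k + 1 := ⟨q / 13, by omega⟩
    have hk' : k ≤ 23 := by omega
    subst hk
    interval_cases k
    all_goals first
      | (exfalso; norm_num at hqp; done)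
      | exact prin_13_53 hζ
      | exact prin_13_79 hζ
      | exact prin_13_131 hζ
      | exact prin_13_157 hζ
  · by_cases h3 : q = 3
    · left
      subst h3
      exact prin_13_3 hζ
    right
    have hz : (q : ZMod 13) ≠ 1 := by
      intro h2
      apply h1
      have h3 : ((q : ℕ) : ZMod 13) = ((1 : ℕ) : ZMod 13) := by rw [h2]; norm_num
      rw [ZMod.natCast_eq_natCast_iff'] at h3
      simpa using h3
    by_cases h2 : q < 18
    · interval_cases q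
      all_goals first
        | (exfalso; norm_num at hqp; done)
        | exact absurd rfl h3
        | exact absurd rfl hq13
        | exact lt_pow_orderOf hqp hq13 312 12 (by norm_num) zord_13_2
        | exact lt_pow_orderOf hqp hq13 312 4 (by norm_num) zord_13_5
        | exact lt_pow_orderOf hqp hq13 312 12 (by norm_num) zord_13_7
        | exact lt_pow_orderOf hqp hq13 312 12 (by norm_num) zord_13_11
        | exact lt_pow_orderOf hqp hq13 312 6 (by norm_num) zord_13_17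
    · refine lt_pow_orderOf hqp hq13 312 2 (by nlinarith) ?_
      intro k hk hk0
      have : k = 1 := by omega
      rw [this, pow_one]
      exact hz

end Fermat.Agent.KummerFLT
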