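import Mathlib
import Fermat.Agent.KummerFLT.Final
import Fermat.Agent.KummerFLT.KummerLemma
import Fermat.Agent.KummerFLT.PID
import Fermat.Prelude.Def_FLTPrelim_FreyPackage

/-!
# FLT for exponents `5, 7, 11, 13`
-/

set_option autoImplicit false

open NumberField IsCyclotomicExtension IsCyclotomicExtension.Rat

namespace Fermat.Agent.KummerFLT

theorem flt_5 {a b c : ℤ} (ha : a ≠ 0) (hb : b ≠ 0) (hc : c ≠ 0) (hab : IsCoprime a b)
    (h : a ^ 5 + b ^ 5 = c ^ 5) : False := by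
  have : Fact (Nat.Prime 5) := ⟨by norm_num⟩
  have : NeZero ((5 : ℕ) : ℚ) := ⟨by norm_num⟩
  have : IsCyclotomicExtension {5} ℚ (CyclotomicField 5 ℚ) :=
    CyclotomicField.isCyclotomicExtension 5 ℚ
  have hζ := IsCyclotomicExtension.zeta_spec 5 ℚ (CyclotomicField 5 ℚ)
  have := five_pid (CyclotomicField 5 ℚ)
  exact flt_of_pid_of_kummer (K := CyclotomicField 5 ℚ) hζ (by norm_num) (kummer_5 hζ)
    ha hb hc hab h

theorem flt_7 {a b c : ℤ} (ha : a ≠ 0) (hb : b ≠ 0) (hc : c ≠ 0) (hab : IsCoprime a b)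
    (h : a ^ 7 + b ^ 7 = c ^ 7) : False := by
  have : Fact (Nat.Prime 7) := ⟨by norm_num⟩
  have : NeZero ((7 : ℕ) : ℚ) := ⟨by norm_num⟩
  have : IsCyclotomicExtension {7} ℚ (CyclotomicField 7 ℚ) :=
    CyclotomicField.isCyclotomicExtension 7 ℚ
  have hζ := IsCyclotomicExtension.zeta_spec 7 ℚ (CyclotomicField 7 ℚ)
  have := pid_7 (K := CyclotomicField 7 ℚ)
  exact flt_of_pid_of_kummer (K := CyclotomicField 7 ℚ) hζ (by norm_num) (kummer_7 hζ)
    ha hb hc hab h

theorem flt_11 {a b c : ℤ} (ha : a ≠ 0) (hb : b ≠ 0) (hc : c ≠ 0) (hab : IsCoprime a b)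
    (h : a ^ 11 + b ^ 11 = c ^ 11) : False := by
  have : Fact (Nat.Prime 11) := ⟨by norm_num⟩
  have : NeZero ((11 : ℕ) : ℚ) := ⟨by norm_num⟩
  have : IsCyclotomicExtension {11} ℚ (CyclotomicField 11 ℚ) :=
    CyclotomicField.isCyclotomicExtension 11 ℚ
  have hζ := IsCyclotomicExtension.zeta_spec 11 ℚ (CyclotomicField 11 ℚ)
  have := pid_11 (K := CyclotomicField 11 ℚ)
  exact flt_of_pid_of_kummer (K := CyclotomicField 11 ℚ) hζ (by norm_num) (kummer_11 hζ)
    ha hb hc hab h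

theorem flt_13 {a b c : ℤ} (ha : a ≠ 0) (hb : b ≠ 0) (hc : c ≠ 0) (hab : IsCoprime a b)
    (h : a ^ 13 + b ^ 13 = c ^ 13) : False := by
  have : Fact (Nat.Prime 13) := ⟨by norm_num⟩
  have : NeZero ((13 : ℕ) : ℚ) := ⟨by norm_num⟩
  have : IsCyclotomicExtension {13} ℚ (CyclotomicField 13 ℚ) :=
    CyclotomicField.isCyclotomicExtension 13 ℚ
  have hζ := IsCyclotomicExtension.zeta_spec 13 ℚ (CyclotomicField 13 ℚ)
  have := pid_13 (K := CyclotomicField 13 ℚ)
  exact flt_of_pid_of_kummer (K := CyclotomicField 13 ℚ) hζ (by norm_num) (kummer_13 hζ)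
    ha hb hc hab h

/-- Any Frey package has exponent at least `17`. -/
theorem frey_seventeen_le (P : FreyPackage) : 17 ≤ P.p := by
  have hcop : IsCoprime P.a P.b := by
    rw [Int.isCoprime_iff_gcd_eq_one]
    have := P.hgcdab
    rw [← Int.coe_gcd] at this
    exact_mod_cast this
  have h := P.hFLT
  have hp5 := P.hp5
  have hpp := P.pp
  by_contra hcon
  push Not at hcon
  generalize hP : P.p = p at *
  interval_cases p
  · exact flt_5 P.ha0 P.hb0 P.hc0 hcop h
  · exact absurd hpp (by norm_num)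
  · exact flt_7 P.ha0 P.hb0 P.hc0 hcop h
  · exact absurd hpp (by norm_num)
  · exact absurd hpp (by norm_num)
  · exact absurd hpp (by norm_num)
  · exact flt_11 P.ha0 P.hb0 P.hc0 hcop h
  · exact absurd hpp (by norm_num)
  · exact flt_13 P.ha0 P.hb0 P.hc0 hcop h
  · exact absurd hpp (by norm_num)
  · exact absurd hpp (by norm_num)
  · exact absurd hpp (by norm_num)

end Fermat.Agent.KummerFLT
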